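import Mathlib
import Fermat.Agent.Conn.Hopf

/-!
# The kernel of reduction of a Hopf order
-/

set_option autoImplicit false
set_option linter.unusedSectionVars false

noncomputable section

namespace Fermat.Agent.Conn

open Module Fermat.Agent.Flat

section Red

variable {R G Ω : Type*} [CommRing R] [Field Ω] [Algebra R Ω] [Group G] [MulSemiringAction G Ω]
variable {V V' : Type*} [AddCommGroup V] [DistribMulAction G V] [AddCommGroup V']
  [DistribMulAction G V']

/-- The elements reducing to the unit element. -/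
def red (A : ValuationSubring Ω) (H : Subalgebra R (V → Ω)) : AddSubgroup V where
  carrier := {v | ∀ f ∈ H, ∀ w, A.valuation (f (w + v) - f w) < 1}
  zero_mem' f hf w := by rw [add_zero, sub_self, map_zero]; exact zero_lt_one
  add_mem' {a b} ha hb f hf w := by
    have h1 := ha f hf w
    have h2 := hb f hf (w + a)
    have h3 := Valuation.map_add_lt _ h2 h1
    rwa [sub_add_sub_cancel, add_assoc] at h3
  neg_mem' {a} ha f hf w := by
    have h1 := ha f hf (w + -a)
    rwa [neg_add_cancel_right, Valuation.map_sub_swap] at h1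

theorem mem_red {A : ValuationSubring Ω} {H : Subalgebra R (V → Ω)} {v : V} :
    v ∈ red A H ↔ ∀ f ∈ H, ∀ w, A.valuation (f (w + v) - f w) < 1 := Iff.rfl

variable {A : ValuationSubring Ω}

theorem sum_mul_lt {ι : Type*} {s : Finset ι} {a b : ι → Ω} (ha : ∀ i ∈ s, a i ∈ A)
    (hb : ∀ i ∈ s, A.valuation (b i) < 1) : A.valuation (∑ i ∈ s, a i * b i) < 1 := by
  refine Valuation.map_sum_lt _ one_ne_zero fun i hi => ?_
  rw [map_mul]
  exact (mul_le_of_le_one_left' ((A.valuation_le_one_iff _).mpr (ha i hi))).trans_lt (hb i hi)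

theorem comul_sub {H : Subalgebra R (V → Ω)} (hH : IsHopfOrder R G H) {f : V → Ω} (hf : f ∈ H) :
    ∃ (n : ℕ) (a b : Fin n → V → Ω), (∀ i, a i ∈ H) ∧ (∀ i, b i ∈ H) ∧
      (∀ x y, f (x + y) = ∑ i, a i x * b i y) ∧
      ∀ x y z, f (x + y) - f (x + z) = ∑ i, a i x * (b i y - b i z) := by
  obtain ⟨n, a, b, ha, hb, h⟩ := mem_tens₂_iff.mp (hH.comul f hf)
  have h' : ∀ x y, f (x + y) = ∑ i, a i x * b i y := h
  refine ⟨n, a, b, ha, hb, h', fun x y z => ?_⟩
  rw [h', h', ← Finset.sum_sub_distrib]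
  refine Finset.sum_congr rfl fun i _ => ?_
  rw [mul_sub]

theorem mem_red_iff {H : Subalgebra R (V → Ω)} (hH : IsHopfOrder R G H)
    (hval : ∀ f ∈ H, ∀ w, f w ∈ A) {v : V} :
    v ∈ red A H ↔ ∀ f ∈ H, A.valuation (f v - f 0) < 1 := by
  constructor
  · intro h f hf
    have := h f hf 0
    rwa [zero_add] at this
  · intro h f hf w
    obtain ⟨n, a, b, ha, hb, -, h2⟩ := comul_sub hH hf
    have h3 := h2 w v 0
    rw [add_zero] at h3
    rw [h3]
    exact sum_mul_lt (fun i _ => hval _ (ha i) w) fun i _ => h _ (hb i)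

/-- **K0** -/
theorem smul_sub_mem_red {H : Subalgebra R (V → Ω)} (hH : IsHopfOrder R G H)
    (hval : ∀ f ∈ H, ∀ w, f w ∈ A) (hres : ∀ (g : G), ∀ a ∈ A, A.valuation (g • a - a) < 1)
    (g : G) (v : V) : g • v - v ∈ red A H := by
  intro f hf w
  obtain ⟨n, a, b, ha, hb, -, h2⟩ := comul_sub hH hf
  have h3 := h2 (w - v) (g • v) v
  rw [sub_add_cancel] at h3
  have h4 : w + (g • v - v) = w - v + g • v := by abel
  rw [h4, h3]
  refine sum_mul_lt (fun i _ => hval _ (ha i) _) fun i _ => ?_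
  rw [hH.equiv g _ (hb i)]
  exact hres g _ (hval _ (hb i) _)

theorem mem_red_res {H : Subalgebra R (V → Ω)} (hH : IsHopfOrder R G H)
    (hval : ∀ f ∈ H, ∀ w, f w ∈ A) (φ : V' →+ V) (hφ : Function.Injective φ)
    (hG : ∀ (g : G) v, φ (g • v) = g • φ v) {v : V'} :
    v ∈ red A (H.map (pull R φ) : Subalgebra R (V' → Ω)) ↔ φ v ∈ red A H := by
  have hval' : ∀ f ∈ (H.map (pull R φ) : Subalgebra R (V' → Ω)), ∀ w, f w ∈ A := by
    rintro _ ⟨f, hf, rfl⟩ w
    exact hval f hf _
  rw [mem_red_iff (hopf_res hH φ hφ hG) hval', mem_red_iff hH hval]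
  constructor
  · intro h f hf
    have h1 := h (pull R φ f) ⟨f, hf, rfl⟩
    rw [pull_apply, pull_apply, map_zero] at h1
    exact h1
  · rintro h _ ⟨f, hf, rfl⟩
    have h1 := h f hf
    change A.valuation (f (φ v) - f (φ 0)) < 1
    rw [map_zero]
    exact h1

theorem mem_red_quo {H : Subalgebra R (V → Ω)} (φ : V →+ V') (hφ : Function.Surjective φ)
    {v : V} (hv : v ∈ red A H) :
    φ v ∈ red A (H.comap (pull R φ) : Subalgebra R (V' → Ω)) := by
  intro f hf w'
  obtain ⟨w, rfl⟩ := hφ w'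
  have h1 := hv _ hf w
  rw [← map_add]
  exact h1

end Red

section Newton

variable {R G Ω : Type*} [CommRing R] [Field Ω] [Algebra R Ω] [Group G] [MulSemiringAction G Ω]
variable {V : Type*} [AddCommGroup V] [DistribMulAction G V]
variable {A : ValuationSubring Ω}

/-- A function of maximal valuation at `v`. -/
theorem exists_min {H : Subalgebra R (V → Ω)} (hH : IsHopfOrder R G H)
    (hRA : ∀ r : R, algebraMap R Ω r ∈ A) (h0 : ∀ f ∈ H, ∃ r : R, algebraMap R Ω r = f 0) (v : V) :
    ∃ f₀ ∈ H, f₀ 0 = 0 ∧ ∀ f ∈ H, A.valuation (f v - f 0) ≤ A.valuation (f₀ v) := by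
  classical
  obtain ⟨S, hS⟩ := hH.fg
  obtain ⟨s, hs, hmax⟩ := Finset.exists_max_image (insert 0 S)
    (fun f : V → Ω => A.valuation (f v - f 0)) ⟨0, Finset.mem_insert_self _ _⟩
  have hsH : s ∈ H := by
    rcases Finset.mem_insert.mp hs with rfl | h
    · exact zero_mem _
    · have : s ∈ Subalgebra.toSubmodule H := by
        rw [← hS]
        exact Submodule.subset_span h
      exact this
  obtain ⟨r, hr⟩ := h0 s hsH
  refine ⟨s - algebraMap R (V → Ω) r, sub_mem hsH (H.algebraMap_mem r), ?_, fun f hf => ?_⟩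
  · rw [Pi.sub_apply, Pi.algebraMap_apply, hr, sub_self]
  · have h1 : (s - algebraMap R (V → Ω) r) v = s v - s 0 := by
      rw [Pi.sub_apply, Pi.algebraMap_apply, hr]
    rw [h1]
    have key : ∀ f ∈ Submodule.span R (S : Set (V → Ω)),
        A.valuation (f v - f 0) ≤ A.valuation (s v - s 0) := by
      intro f hf
      induction hf using Submodule.span_induction with
      | mem f hf => exact hmax f (Finset.mem_insert_of_mem hf)
      | zero => rw [Pi.zero_apply, Pi.zero_apply, sub_self, map_zero]; exact zero_le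
      | add f g _ _ hf hg =>
        have h3 : (f + g) v - (f + g) 0 = (f v - f 0) + (g v - g 0) := by
          rw [Pi.add_apply, Pi.add_apply]; ring
        rw [h3]
        exact Valuation.map_add_le _ hf hg
      | smul r f _ hf =>
        have h3 : (r • f) v - (r • f) 0 = algebraMap R Ω r * (f v - f 0) := by
          rw [Pi.smul_apply, Pi.smul_apply, Algebra.smul_def, Algebra.smul_def]; ring
        rw [h3, map_mul]
        exact (mul_le_of_le_one_left' ((A.valuation_le_one_iff _).mpr (hRA r))).trans hf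
    exact key f (by rw [hS]; exact hf)

/-- The span of a Hopf order over the valuation ring. -/
def HA (A : ValuationSubring Ω) (H : Subalgebra R (V → Ω)) : Submodule A (V → Ω) :=
  Submodule.span A (H : Set (V → Ω))

theorem HA_val {H : Subalgebra R (V → Ω)} (hval : ∀ f ∈ H, ∀ w, f w ∈ A) {F : V → Ω}
    (hF : F ∈ HA A H) (w : V) : F w ∈ A := by
  induction hF using Submodule.span_induction with
  | mem f hf => exact hval f hf w
  | zero => exact A.zero_mem
  | add f g _ _ hf hg => exact A.add_mem _ _ hf hg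
  | smul a f _ hf => exact A.mul_mem _ _ a.2 hf

theorem HA_step {H : Subalgebra R (V → Ω)} (hH : IsHopfOrder R G H) {v : V} {c : Ω}
    (hc : ∀ f ∈ H, A.valuation (f v - f 0) ≤ A.valuation c) {F : V → Ω} (hF : F ∈ HA A H) :
    ∃ g ∈ HA A H, fwdDiff v F = c • g := by
  induction hF using Submodule.span_induction with
  | mem f hf =>
    obtain ⟨n, a, b, ha, hb, -, h2⟩ := comul_sub hH hf
    have h3 : ∀ i, ∃ β : A, b i v - b i 0 = c * β := by
      intro i
      by_cases hc0 : c = 0
      · refine ⟨0, ?_⟩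
        have h4 := hc _ (hb i)
        rw [hc0, map_zero, le_zero_iff, map_eq_zero] at h4
        rw [h4, hc0, zero_mul]
      · refine ⟨⟨(b i v - b i 0) / c, ?_⟩, ?_⟩
        · rw [← A.valuation_le_one_iff, map_div₀]
          exact div_le_one_of_le₀ (hc _ (hb i)) zero_le
        · change _ = c * ((b i v - b i 0) / c)
          rw [mul_div_cancel₀ _ hc0]
    choose β hβ using h3
    refine ⟨∑ i, β i • a i, Submodule.sum_mem _ fun i _ => Submodule.smul_mem _ _
      (Submodule.subset_span (ha i)), ?_⟩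
    funext x
    have h4 := h2 x v 0
    rw [add_zero] at h4
    rw [fwdDiff, h4, Pi.smul_apply, Finset.sum_apply, smul_eq_mul, Finset.mul_sum]
    refine Finset.sum_congr rfl fun i _ => ?_
    rw [hβ, Pi.smul_apply]
    change _ = c * ((β i : Ω) * a i x)
    ring
  | zero => exact ⟨0, zero_mem _, by funext x; simp [fwdDiff]⟩
  | add f g _ _ hf hg =>
    obtain ⟨f', hf', h1⟩ := hf
    obtain ⟨g', hg', h2⟩ := hg
    exact ⟨f' + g', add_mem hf' hg', by rw [fwdDiff_add, h1, h2, smul_add]⟩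
  | smul a f _ hf =>
    obtain ⟨f', hf', h1⟩ := hf
    refine ⟨a • f', Submodule.smul_mem _ _ hf', ?_⟩
    rw [fwdDiff_const_smul, h1, smul_comm]

theorem HA_iter {H : Subalgebra R (V → Ω)} (hH : IsHopfOrder R G H) {v : V} {c : Ω}
    (hc : ∀ f ∈ H, A.valuation (f v - f 0) ≤ A.valuation c) (m : ℕ) {F : V → Ω}
    (hF : F ∈ HA A H) : ∃ g ∈ HA A H, (fwdDiff v)^[m] F = c ^ m • g := by
  induction m generalizing F with
  | zero => exact ⟨F, hF, by rw [Function.iterate_zero, id, pow_zero, one_smul]⟩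
  | succ m ih =>
    obtain ⟨g, hg, h1⟩ := HA_step hH hc hF
    obtain ⟨g', hg', h2⟩ := ih hg
    refine ⟨g', hg', ?_⟩
    rw [Function.iterate_succ_apply, h1, fwdDiff_iter_const_smul, h2, smul_smul, pow_succ']

/-- Newton's expansion. -/
theorem newton {H : Subalgebra R (V → Ω)} (hH : IsHopfOrder R G H)
    (hval : ∀ f ∈ H, ∀ w, f w ∈ A) {v : V} {f₀ : V → Ω} (hf₀ : f₀ ∈ H) (h00 : f₀ 0 = 0)
    (hc : ∀ f ∈ H, A.valuation (f v - f 0) ≤ A.valuation (f₀ v)) :
    ∃ β : ℕ → A, ∀ k : ℕ, f₀ (k • v) = k * f₀ v +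
      ∑ j ∈ Finset.Ico 2 (k + 1), (k.choose j : Ω) * (f₀ v ^ j * β j) := by
  choose g hg hgm using fun m => HA_iter hH hc m (Submodule.subset_span hf₀ : f₀ ∈ HA A H)
  refine ⟨fun m => ⟨g m 0, HA_val hval (hg m) 0⟩, fun k => ?_⟩
  have h1 := shift_eq_sum_fwdDiff_iter v f₀ k 0
  rw [zero_add] at h1
  rw [h1]
  have h2 : (fwdDiff v)^[0] f₀ 0 = 0 := h00
  have h3 : (fwdDiff v)^[1] f₀ 0 = f₀ v := by
    rw [Function.iterate_one, fwdDiff, zero_add, h00, sub_zero]
  have h4 : ∀ j, (fwdDiff v)^[j] f₀ 0 = f₀ v ^ j * g j 0 := by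
    intro j
    rw [hgm j]
    rfl
  rcases Nat.lt_or_ge k 1 with hk | hk
  · have : k = 0 := by omega
    subst this
    rw [zero_add, Finset.sum_range_one, h2, smul_zero, Nat.cast_zero, zero_mul, zero_add]
    rfl
  · rw [Finset.range_eq_Ico, Finset.sum_eq_sum_Ico_succ_bot (by omega),
      Finset.sum_eq_sum_Ico_succ_bot (by omega), h2, smul_zero, zero_add]
    change k.choose 1 • ((fwdDiff v)^[1] f₀ 0) + _ = _
    rw [h3, Nat.choose_one_right, nsmul_eq_mul]
    congr 1
    refine Finset.sum_congr rfl fun j _ => ?_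
    rw [h4, nsmul_eq_mul]

end Newton

end Fermat.Agent.Conn
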