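import Mathlib
import Fermat.Agent.Conn.Red

/-!
# Connected groups have no quotients with trivial action of inertia
-/

set_option autoImplicit false
set_option linter.unusedSectionVars false
set_option linter.style.haveILetI false

noncomputable section

namespace Fermat.Agent.Conn

open Module Fermat.Agent.Flat

/-- `G` acts as an inertia group with absolute ramification index one. -/
structure Unr (G : Type*) {Ω : Type*} [Field Ω] [Group G] [MulSemiringAction G Ω]
    (A : ValuationSubring Ω) (p : ℕ) : Prop where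
  prime : p.Prime
  ne_zero : (p : Ω) ≠ 0
  lt_one : A.valuation (p : Ω) < 1
  res : ∀ (g : G), ∀ a ∈ A, A.valuation (g • a - a) < 1
  le : ∀ x : Ω, (∀ g : G, g • x = x) → A.valuation x < 1 → A.valuation x ≤ A.valuation (p : Ω)

variable {G Ω : Type*} [Field Ω] [Group G] [MulSemiringAction G Ω] {A : ValuationSubring Ω} {p : ℕ}

section K1

variable {V : Type*} [AddCommGroup V] [DistribMulAction G V]

theorem valuation_natCast_le (A : ValuationSubring Ω) (n : ℕ) : A.valuation (n : Ω) ≤ 1 :=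
  (A.valuation_le_one_iff _).mpr (natCast_mem A n)

theorem hopf_zero {H : Subalgebra (fixA G A) (V → Ω)} (hH : IsHopfOrder (fixA G A) G H)
    (hval : ∀ f ∈ H, ∀ w, f w ∈ A) (f : V → Ω) (hf : f ∈ H) :
    ∃ r : fixA G A, algebraMap (fixA G A) Ω r = f 0 := by
  refine ⟨⟨f 0, hval f hf 0, fun g => ?_⟩, rfl⟩
  rw [← hH.equiv g f hf, smul_zero]

theorem exists_min' {H : Subalgebra (fixA G A) (V → Ω)} (hH : IsHopfOrder (fixA G A) G H)
    (hval : ∀ f ∈ H, ∀ w, f w ∈ A) (v : V) :
    ∃ f₀ ∈ H, f₀ 0 = 0 ∧ ∀ f ∈ H, A.valuation (f v - f 0) ≤ A.valuation (f₀ v) :=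
  exists_min hH (fun r => r.2.1) (hopf_zero hH hval) v

/-- The fundamental inequality. -/
theorem p_le {R : Type*} [CommRing R] [Algebra R Ω] (hU : Unr G A p) {H : Subalgebra R (V → Ω)}
    (hH : IsHopfOrder R G H)
    (hval : ∀ f ∈ H, ∀ w, f w ∈ A) {v : V} (hpv : p • v = 0) {f₀ : V → Ω} (hf₀ : f₀ ∈ H)
    (h00 : f₀ 0 = 0) (hc : ∀ f ∈ H, A.valuation (f v - f 0) ≤ A.valuation (f₀ v))
    (hc0 : f₀ v ≠ 0) (hc1 : A.valuation (f₀ v) < 1) :
    A.valuation (p : Ω) ≤ A.valuation (f₀ v) ^ (p - 1) := by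
  by_contra hlt
  rw [not_le] at hlt
  obtain ⟨β, hβ⟩ := newton hH hval hf₀ h00 hc
  have h1 := hβ p
  rw [hpv, h00] at h1
  set c := f₀ v with hcdef
  have hp2 := hU.prime.two_le
  have h2 : (p : Ω) + ∑ j ∈ Finset.Ico 2 (p + 1), (p.choose j : Ω) * (c ^ (j - 1) * β j) = 0 := by
    apply mul_right_cancel₀ hc0
    rw [zero_mul, add_mul, Finset.sum_mul]
    rw [h1]
    congr 1
    refine Finset.sum_congr rfl fun j hj => ?_
    rw [Finset.mem_Ico] at hj
    have h3 : c ^ j = c ^ (j - 1) * c := by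
      rw [← pow_succ]
      congr 1
      omega
    rw [h3]
    ring
  have hvp0 : A.valuation (p : Ω) ≠ 0 := (Valuation.ne_zero_iff _).mpr hU.ne_zero
  have h3 : A.valuation (∑ j ∈ Finset.Ico 2 (p + 1), (p.choose j : Ω) * (c ^ (j - 1) * β j)) <
      A.valuation (p : Ω) := by
    refine Valuation.map_sum_lt _ hvp0 fun j hj => ?_
    rw [Finset.mem_Ico] at hj
    have hβ1 : A.valuation ((β j : A) : Ω) ≤ 1 := (A.valuation_le_one_iff _).mpr (β j).2
    rw [map_mul, map_mul, map_pow]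
    rcases Nat.lt_or_ge j p with hjp | hjp
    · have h4 : A.valuation ((p.choose j : ℕ) : Ω) ≤ A.valuation (p : Ω) := by
        obtain ⟨m, hm⟩ := hU.prime.dvd_choose_self (by omega : j ≠ 0) hjp
        rw [hm, Nat.cast_mul, map_mul]
        exact mul_le_of_le_one_right' (valuation_natCast_le A m)
      have h5 : A.valuation c ^ (j - 1) * A.valuation ((β j : A) : Ω) < 1 :=
        (mul_le_of_le_one_right' hβ1).trans_lt (pow_lt_one₀ zero_le hc1 (by omega))
      calc _ ≤ A.valuation (p : Ω) * (A.valuation c ^ (j - 1) * A.valuation ((β j : A) : Ω)) :=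
            mul_le_mul_left h4 _
        _ < A.valuation (p : Ω) * 1 :=
            mul_lt_mul_of_pos_left h5 (zero_lt_iff.mpr hvp0)
        _ = _ := mul_one _
    · have hjp' : j = p := by omega
      subst hjp'
      rw [Nat.choose_self, Nat.cast_one, map_one, one_mul]
      exact (mul_le_of_le_one_right' hβ1).trans_lt hlt
  have h4 : (p : Ω) = -∑ j ∈ Finset.Ico 2 (p + 1), (p.choose j : Ω) * (c ^ (j - 1) * β j) :=
    eq_neg_of_add_eq_zero_left h2
  have h5 := congrArg A.valuation h4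
  rw [Valuation.map_neg] at h5
  rw [← h5] at h3
  exact lt_irrefl _ h3

theorem value_ne_zero {H : Subalgebra (fixA G A) (V → Ω)} (hH : IsHopfOrder (fixA G A) G H)
    {v : V} (hv : v ≠ 0) {f₀ : V → Ω}
    (hc : ∀ f ∈ H, A.valuation (f v - f 0) ≤ A.valuation (f₀ v)) : f₀ v ≠ 0 := by
  intro h0
  apply hv
  refine hH.sep v 0 fun f hf => ?_
  have h1 := hc f hf
  rw [h0, map_zero, le_zero_iff, map_eq_zero, sub_eq_zero] at h1
  exact h1

/-- **K1** -/
theorem eq_zero_of_fixed (hU : Unr G A p) (hp2 : p ≠ 2) {H : Subalgebra (fixA G A) (V → Ω)}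
    (hH : IsHopfOrder (fixA G A) G H) (hval : ∀ f ∈ H, ∀ w, f w ∈ A)
    (hred : ∀ v : V, v ∈ red A H) {n : ℕ} {v : V} (hpow : p ^ n • v = 0)
    (hfix : ∀ g : G, g • v = v) : v = 0 := by
  -- reduction to elements of order p
  have key : ∀ v : V, p • v = 0 → (∀ g : G, g • v = v) → v = 0 := by
    intro v hpv hfix
    by_contra hv
    obtain ⟨f₀, hf₀, h00, hc⟩ := exists_min' hH hval v
    have hc0 := value_ne_zero hH hv hc
    have hc1 : A.valuation (f₀ v) < 1 := by
      have := (mem_red_iff hH hval).mp (hred v) f₀ hf₀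
      rwa [h00, sub_zero] at this
    have h1 := p_le hU hH hval hpv hf₀ h00 hc hc0 hc1
    have h2 := hU.le (f₀ v) (fun g => by rw [← hH.equiv g f₀ hf₀, hfix]) hc1
    have h3 : A.valuation (f₀ v) ^ (p - 1) ≤ A.valuation (p : Ω) ^ (p - 1) :=
      pow_le_pow_left₀ zero_le h2 _
    have hp3 : 3 ≤ p := by
      have := hU.prime.two_le
      omega
    have hvp0 : A.valuation (p : Ω) ≠ 0 := (Valuation.ne_zero_iff _).mpr hU.ne_zero
    have h4 : A.valuation (p : Ω) ^ (p - 1) < A.valuation (p : Ω) :=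
      pow_lt_self_of_lt_one₀ (zero_lt_iff.mpr hvp0) hU.lt_one (by omega)
    exact lt_irrefl _ (h1.trans_lt (h3.trans_lt h4))
  induction n generalizing v with
  | zero => rwa [pow_zero, one_smul] at hpow
  | succ n ih =>
    have h1 : p ^ n • v = 0 := by
      refine key _ ?_ fun g => ?_
      · rw [← mul_smul, ← pow_succ']
        exact hpow
      · rw [smul_comm g (p ^ n) v, hfix]
    exact ih h1 hfix

end K1

section K2

variable (G) in
/-- The augmentation subgroup. -/
def aug {V : Type*} [AddCommGroup V] [DistribMulAction G V] (Y : AddSubgroup V) : AddSubgroup V :=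
  AddSubgroup.closure {x | ∃ g : G, ∃ v ∈ Y, x = g • v - v}

variable {V : Type*} [AddCommGroup V] [DistribMulAction G V]

variable (G) in
/-- The action on a stable subgroup. -/
@[reducible] def subAct (N : AddSubgroup V) (hN : ∀ (g : G), ∀ v ∈ N, g • v ∈ N) :
    DistribMulAction G N where
  smul g x := ⟨g • (x : V), hN g x x.2⟩
  one_smul x := Subtype.ext (one_smul G (x : V))
  mul_smul g h x := Subtype.ext (mul_smul g h (x : V))
  smul_zero g := Subtype.ext (smul_zero g)
  smul_add g x y := Subtype.ext (smul_add g (x : V) y)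

variable (G) in
/-- The trivial action. -/
@[reducible] def trivAct (Q : Type*) [AddCommGroup Q] : DistribMulAction G Q where
  smul _ x := x
  one_smul _ := rfl
  mul_smul _ _ _ := rfl
  smul_zero _ := rfl
  smul_add _ _ _ := rfl

variable [Finite V]

/-- **K2** -/
theorem red_eq_aug (hU : Unr G A p) (hp2 : p ≠ 2) [IsPrincipalIdealRing (fixA G A)]
    {H : Subalgebra (fixA G A) (V → Ω)} (hH : IsHopfOrder (fixA G A) G H)
    (hval : ∀ f ∈ H, ∀ w, f w ∈ A) {n : ℕ} (hpow : ∀ v : V, p ^ n • v = 0) :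
    red A H = aug G (⊤ : AddSubgroup V) := by
  have hle : aug G (⊤ : AddSubgroup V) ≤ red A H := by
    rw [aug, AddSubgroup.closure_le]
    rintro _ ⟨g, v, -, rfl⟩
    exact smul_sub_mem_red hH hval hU.res g v
  refine le_antisymm (fun v hv => ?_) hle
  set N := red A H with hNdef
  have hN : ∀ (g : G), ∀ v ∈ N, g • v ∈ N := by
    intro g v hv
    have h1 := N.add_mem (smul_sub_mem_red hH hval hU.res g v) hv
    rwa [sub_add_cancel] at h1
  letI := subAct G N hN
  have hGN : ∀ (g : G) (x : N), N.subtype (g • x) = g • N.subtype x := fun _ _ => rfl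
  have hHN := hopf_res hH N.subtype N.subtype_injective hGN
  set HN : Subalgebra (fixA G A) (N → Ω) := H.map (pull (fixA G A) N.subtype) with hHNdef
  have hredN : ∀ x : N, x ∈ red A HN := fun x =>
    (mem_red_res hH hval N.subtype N.subtype_injective hGN).mpr x.2
  let B : AddSubgroup N := (aug G (⊤ : AddSubgroup V)).addSubgroupOf N
  letI := trivAct G (N ⧸ B)
  have hφ : Function.Surjective (QuotientAddGroup.mk' B) := QuotientAddGroup.mk'_surjective B
  have hGQ : ∀ (g : G) (x : N), QuotientAddGroup.mk' B (g • x) =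
      g • QuotientAddGroup.mk' B x := by
    intro g x
    change QuotientAddGroup.mk' B (g • x) = QuotientAddGroup.mk' B x
    rw [← sub_eq_zero, ← map_sub, QuotientAddGroup.mk'_apply, QuotientAddGroup.eq_zero_iff,
      AddSubgroup.mem_addSubgroupOf]
    exact AddSubgroup.subset_closure ⟨g, x, AddSubgroup.mem_top _, rfl⟩
  have hHQ := hopf_quo desc_fixA hHN (QuotientAddGroup.mk' B) hφ hGQ
  set HQ : Subalgebra (fixA G A) (N ⧸ B → Ω) := HN.comap (pull (fixA G A) (QuotientAddGroup.mk' B))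
    with hHQdef
  have hvalQ : ∀ f ∈ HQ, ∀ w, f w ∈ A := by
    intro f hf w
    obtain ⟨x, rfl⟩ := hφ w
    obtain ⟨f', hf', h1⟩ := (show pull (fixA G A) (QuotientAddGroup.mk' B) f ∈ HN from hf)
    have h2 := congrFun h1 x
    have h3 : f (QuotientAddGroup.mk' B x) = f' (N.subtype x) := h2.symm
    rw [h3]
    exact hval f' hf' _
  have hredQ : ∀ x : N ⧸ B, x ∈ red A HQ := by
    intro x
    obtain ⟨y, rfl⟩ := hφ x
    exact mem_red_quo _ hφ (hredN y)
  have h1 : QuotientAddGroup.mk' B ⟨v, hv⟩ = 0 := by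
    refine eq_zero_of_fixed (n := n) hU hp2 hHQ hvalQ hredQ ?_ fun g => rfl
    rw [← map_nsmul]
    have : p ^ n • (⟨v, hv⟩ : N) = 0 := Subtype.ext (hpow v)
    rw [this, map_zero]
  rw [QuotientAddGroup.mk'_apply, QuotientAddGroup.eq_zero_iff, AddSubgroup.mem_addSubgroupOf] at h1
  exact h1

/-- **K2**, strictness. -/
theorem mem_aug_of_mem (hU : Unr G A p) (hp2 : p ≠ 2) [IsPrincipalIdealRing (fixA G A)]
    {H : Subalgebra (fixA G A) (V → Ω)} (hH : IsHopfOrder (fixA G A) G H)
    (hval : ∀ f ∈ H, ∀ w, f w ∈ A) {n : ℕ} (hpow : ∀ v : V, p ^ n • v = 0)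
    (Y : AddSubgroup V) (hY : ∀ (g : G), ∀ v ∈ Y, g • v ∈ Y) {y : V} (hy : y ∈ Y)
    (hya : y ∈ aug G (⊤ : AddSubgroup V)) : y ∈ aug G Y := by
  letI := subAct G Y hY
  have hGY : ∀ (g : G) (x : Y), Y.subtype (g • x) = g • Y.subtype x := fun _ _ => rfl
  have hHY := hopf_res hH Y.subtype Y.subtype_injective hGY
  have hvalY : ∀ f ∈ (H.map (pull (fixA G A) Y.subtype) : Subalgebra (fixA G A) (Y → Ω)),
      ∀ w, f w ∈ A := by
    rintro _ ⟨f, hf, rfl⟩ w
    exact hval f hf _
  have h1 : (⟨y, hy⟩ : Y) ∈ aug G (⊤ : AddSubgroup Y) := by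
    rw [← red_eq_aug hU hp2 hHY hvalY (n := n) fun v => Subtype.ext (hpow v)]
    rw [mem_red_res hH hval Y.subtype Y.subtype_injective hGY, red_eq_aug hU hp2 hH hval hpow]
    exact hya
  have h2 : (aug G (⊤ : AddSubgroup Y)).map Y.subtype ≤ aug G Y := by
    rw [aug, AddMonoidHom.map_closure, AddSubgroup.closure_le]
    rintro _ ⟨_, ⟨g, v, -, rfl⟩, rfl⟩
    exact AddSubgroup.subset_closure ⟨g, v, v.2, rfl⟩
  exact h2 ⟨_, h1, rfl⟩

end K2

end Fermat.Agent.Conn
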