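import Mathlib
import Fermat.Agent.Conn.Aug

/-!
# From flat Galois representations to Hopf orders over the valuation ring of the inertia field
-/

set_option autoImplicit false
set_option linter.unusedSectionVars false
set_option linter.style.haveILetI false

noncomputable section

open scoped TensorProduct

namespace Fermat.Agent.Conn

open Module Fermat.Agent.Flat Fermat.Agent.LG Fermat.Agent.GaloisBasics Fermat.Agent.Inertia
  Fermat.Agent.EC

/-- The field of algebraic numbers. -/
local notation "Qb" => AlgebraicClosure ℚ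
/-- The absolute Galois group. -/
local notation "GQ" => (AlgebraicClosure ℚ ≃ₐ[ℚ] AlgebraicClosure ℚ)

section Base

variable {A : ValuationSubring Qb} {p : ℕ}

theorem algebraMap_mem_OI (hp : p.Prime) (hA : A.LiesOverPrime p)
    (r : GaloisRep.ratLocalizedAt p) :
    algebraMap (GaloisRep.ratLocalizedAt p) Qb r ∈ OI A := by
  refine ⟨?_, fun g => (g : GQ).commutes (r : ℚ)⟩
  change algebraMap ℚ Qb (r : ℚ) ∈ A
  have h1 : (r : ℚ).den.Coprime p := r.2
  have h2 : ¬ p ∣ (r : ℚ).den := by
    rw [← Nat.Prime.coprime_iff_not_dvd hp, Nat.coprime_comm]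
    exact h1
  have h3 : A.valuation (((r : ℚ).den : ℕ) : Qb) = 1 := v_nat_eq_one hp hA h2
  rw [← A.valuation_le_one_iff]
  have h4 : algebraMap ℚ Qb (r : ℚ) * (((r : ℚ).den : ℕ) : Qb) =
      (((r : ℚ).num : ℤ) : Qb) := by
    have h5 : (r : ℚ) * (r : ℚ).den = (r : ℚ).num := Rat.mul_den_eq_num _
    have h6 := congrArg (algebraMap ℚ Qb) h5
    rw [map_mul, map_natCast, map_intCast] at h6
    exact h6
  have h5 := congrArg A.valuation h4
  rw [map_mul, h3, mul_one] at h5
  rw [h5]
  exact (A.valuation_le_one_iff _).mpr (intCast_mem A _)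

/-- Base change to the inertia field. -/
theorem isFlat_inertia (hp : p.Prime) (hA : A.LiesOverPrime p) {V : Type*} [AddCommGroup V]
    [DistribMulAction GQ V] (h : IsFlat (GaloisRep.ratLocalizedAt p) GQ V Qb) :
    IsFlat (OI A) (A.inertiaSubgroupIn ℚ) V Qb := by
  obtain ⟨H, hH⟩ := h
  -- the span is a subalgebra
  let S : Submodule (OI A) (V → Qb) := Submodule.span (OI A) (H : Set (V → Qb))
  have hmul : ∀ x ∈ S, ∀ y ∈ S, x * y ∈ S := by
    intro x hx y hy
    have h1 : S * S ≤ S := by
      rw [Submodule.span_mul_span, Submodule.span_le]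
      rintro _ ⟨a, ha, b, hb, rfl⟩
      exact Submodule.subset_span (mul_mem (s := H) ha hb)
    exact h1 (Submodule.mul_mem_mul hx hy)
  let H' : Subalgebra (OI A) (V → Qb) :=
    { carrier := S
      mul_mem' := fun hx hy => hmul _ hx _ hy
      add_mem' := fun hx hy => add_mem hx hy
      algebraMap_mem' := fun r => by
        rw [Algebra.algebraMap_eq_smul_one]
        exact S.smul_mem _ (Submodule.subset_span (one_mem H)) }
  have hH' : ∀ f, f ∈ H' ↔ f ∈ S := fun f => Iff.rfl
  have hsub : ∀ f ∈ H, f ∈ H' := fun f hf => Submodule.subset_span hf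
  refine ⟨H', ?_, fun v w hvw => hH.sep v w fun f hf => hvw f (hsub f hf), fun g f hf v => ?_,
    fun f hf => ?_⟩
  · obtain ⟨s, hs⟩ := hH.fg
    refine ⟨s, ?_⟩
    apply le_antisymm
    · rw [Submodule.span_le]
      intro x hx
      refine hsub x ?_
      have : x ∈ Subalgebra.toSubmodule H := by
        rw [← hs]
        exact Submodule.subset_span hx
      exact this
    · change S ≤ _
      rw [Submodule.span_le]
      intro x hx
      have key : ∀ x ∈ Submodule.span (GaloisRep.ratLocalizedAt p) (s : Set (V → Qb)),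
          x ∈ Submodule.span (OI A) (s : Set (V → Qb)) := by
        intro x hx'
        induction hx' using Submodule.span_induction with
        | mem f hf => exact Submodule.subset_span hf
        | zero => exact zero_mem _
        | add f g _ _ hf hg => exact add_mem hf hg
        | smul r f _ hf =>
          have h1 : r • f = (⟨_, algebraMap_mem_OI hp hA r⟩ : OI A) • f := by
            funext v
            rw [Pi.smul_apply, Algebra.smul_def]
            rfl
          rw [h1]
          exact Submodule.smul_mem _ _ hf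
      exact key x (by rw [hs]; exact hx)
  · have hf' : f ∈ Submodule.span (OI A) (H : Set (V → Qb)) := hf
    clear hf
    induction hf' using Submodule.span_induction with
    | mem f hf => exact hH.equiv (g : GQ) f hf v
    | zero => exact (smul_zero g).symm
    | add f f' _ _ hf hf' => rw [Pi.add_apply, Pi.add_apply, hf, hf', smul_add]
    | smul r f _ hf =>
      rw [Pi.smul_apply, Pi.smul_apply, hf, Algebra.smul_def, Algebra.smul_def, smul_mul']
      congr 1
      exact (r.2.2 g).symm
  · have hf' : f ∈ Submodule.span (OI A) (H : Set (V → Qb)) := hf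
    clear hf
    induction hf' using Submodule.span_induction with
    | mem f hf =>
      obtain ⟨n, a, b, ha, hb, h⟩ := mem_tens₂_iff.mp (hH.comul f hf)
      exact mem_tens₂_iff.mpr ⟨n, a, b, fun i => hsub _ (ha i), fun i => hsub _ (hb i), h⟩
    | zero => exact zero_mem _
    | add f f' _ _ hf hf' => exact add_mem hf hf'
    | smul r f _ hf => exact (tens₂ (OI A) H' H').smul_mem hf r

end Base

section Level

variable {T : Type} [CommRing T] [IsLocalRing T]

/-- The reduction of a Galois representation modulo an ideal. -/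
def Lev (ρ : GaloisRepAdic T) (I : Ideal T) : Type := ρ.V ⧸ (I • (⊤ : Submodule T ρ.V))

variable (ρ : GaloisRepAdic T) (I : Ideal T)

instance : AddCommGroup (Lev ρ I) :=
  inferInstanceAs (AddCommGroup (ρ.V ⧸ (I • (⊤ : Submodule T ρ.V))))

instance : Module T (Lev ρ I) :=
  inferInstanceAs (Module T (ρ.V ⧸ (I • (⊤ : Submodule T ρ.V))))

/-- The projection. -/
def toLev : ρ.V →ₗ[T] Lev ρ I := Submodule.mkQ _

theorem toLev_surjective : Function.Surjective (toLev ρ I) := Submodule.mkQ_surjective _

theorem toLev_eq_zero {x : ρ.V} : toLev ρ I x = 0 ↔ x ∈ I • (⊤ : Submodule T ρ.V) :=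
  Submodule.Quotient.mk_eq_zero _

instance : DistribMulAction GQ (Lev ρ I) where
  smul σ x := ρ.levelAction I σ x
  one_smul x := by
    obtain ⟨y, rfl⟩ := toLev_surjective ρ I x
    change toLev ρ I (ρ.ρ 1 y) = toLev ρ I y
    rw [map_one, Module.End.one_apply]
  mul_smul σ τ x := by
    obtain ⟨y, rfl⟩ := toLev_surjective ρ I x
    change toLev ρ I (ρ.ρ (σ * τ) y) = toLev ρ I (ρ.ρ σ (ρ.ρ τ y))
    rw [map_mul, Module.End.mul_apply]
  smul_zero σ := map_zero (ρ.levelAction I σ)
  smul_add σ x y := map_add (ρ.levelAction I σ) x y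

theorem smul_toLev (σ : GQ) (x : ρ.V) : σ • toLev ρ I x = toLev ρ I (ρ.ρ σ x) := rfl

theorem smul_lev (σ : GQ) (x : Lev ρ I) : σ • x = ρ.levelAction I σ x := rfl

variable {p : ℕ}

theorem isFlat_lev (hflat : ρ.IsFlatAt p) (hI : Finite (T ⧸ I)) :
    IsFlat (GaloisRep.ratLocalizedAt p) GQ (Lev ρ I) Qb := by
  obtain ⟨H, _, _, hfin, -, -, e₀, hadd, hgal⟩ := hflat.2 I hI
  let e : WithConv (H →ₐ[GaloisRep.ratLocalizedAt p] Qb) ≃ Lev ρ I := e₀
  have hadd1 : ∀ f g, e (f * g) = e f + e g := hadd
  have hgal1 : ∀ (σ : GQ) (f g : WithConv (H →ₐ[GaloisRep.ratLocalizedAt p] Qb)),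
    (∀ h : H, g.ofConv h = σ (f.ofConv h)) → e g = σ • (e f) := hgal
  let e' : Lev ρ I → (H →ₐ[GaloisRep.ratLocalizedAt p] Qb) := fun v => (e.symm v).ofConv
  have hadd' : ∀ v w : Lev ρ I, e.symm (v + w) = e.symm v * e.symm w := by
    intro v w
    rw [Equiv.symm_apply_eq, hadd1, Equiv.apply_symm_apply, Equiv.apply_symm_apply]
  have hgal' : ∀ (σ : GQ) (v : Lev ρ I) (h : H), e' (σ • v) h = σ (e' v h) := by
    intro σ v h
    let g : WithConv (H →ₐ[GaloisRep.ratLocalizedAt p] Qb) :=
      WithConv.toConv (((σ : Qb ≃ₐ[ℚ] Qb).toAlgHom.restrictScalars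
        (GaloisRep.ratLocalizedAt p)).comp (e' v))
    have h1 : e g = σ • v := by
      rw [hgal1 σ (e.symm v) g fun h => rfl, Equiv.apply_symm_apply]
    have h2 : e' (σ • v) = g.ofConv := by
      change (e.symm (σ • v)).ofConv = _
      rw [← h1, Equiv.symm_apply_apply]
    rw [h2]
    rfl
  let Φ : H →ₐ[GaloisRep.ratLocalizedAt p] (Lev ρ I → Qb) := AlgHom.pi e'
  have hΦ : ∀ h v, Φ h v = e' v h := fun h v => rfl
  refine ⟨Φ.range, ?_, fun v w hvw => ?_, ?_, ?_⟩
  · have h1 : Subalgebra.toSubmodule Φ.range = LinearMap.range Φ.toLinearMap := rfl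
    rw [h1, LinearMap.range_eq_map]
    exact hfin.fg_top.map _
  · apply e.symm.injective
    apply WithConv.ofConv_injective
    refine AlgHom.ext fun h => ?_
    exact hvw (Φ h) ⟨h, rfl⟩
  · rintro σ _ ⟨h, rfl⟩ v
    change Φ h (σ • v) = σ • Φ h v
    rw [hΦ, hΦ, hgal']
    rfl
  · rintro _ ⟨h, rfl⟩
    have h1 : (fun q : Lev ρ I × Lev ρ I => Φ h (q.1 + q.2)) = fun q =>
        Algebra.TensorProduct.lift (e' q.1) (e' q.2) (fun _ _ => .all ..)
          (Coalgebra.comul (R := GaloisRep.ratLocalizedAt p) h) := by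
      funext q
      rw [hΦ]
      change (e.symm (q.1 + q.2)) h = _
      rw [hadd', AlgHom.convMul_apply]
    change (fun q : Lev ρ I × Lev ρ I => Φ h (q.1 + q.2)) ∈ _
    rw [h1]
    generalize Coalgebra.comul (R := GaloisRep.ratLocalizedAt p) h = t
    induction t using TensorProduct.induction_on with
    | zero => simp only [map_zero]; exact zero_mem _
    | tmul a b =>
      have h2 : (fun q : Lev ρ I × Lev ρ I =>
          Algebra.TensorProduct.lift (e' q.1) (e' q.2) (fun _ _ => .all ..) (a ⊗ₜ b)) =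
          fun q => Φ a q.1 * Φ b q.2 := by
        funext q
        rw [Algebra.TensorProduct.lift_tmul, hΦ, hΦ]
      rw [h2]
      exact mul_mem_tens₂ ⟨a, rfl⟩ ⟨b, rfl⟩
    | add a b ha hb =>
      simp only [map_add]
      exact add_mem ha hb

end Level

end Fermat.Agent.Conn
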