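import Mathlib
import Fermat.Agent.Conn.Level

/-!
# The inertia group at `p` is unramified in the sense of `Unr`, and moves the `p`-th roots of unity
-/

set_option autoImplicit false
set_option linter.unusedSectionVars false
set_option linter.style.haveILetI false

noncomputable section

namespace Fermat.Agent.Conn

open Module Fermat.Agent.Flat Fermat.Agent.LG Fermat.Agent.GaloisBasics Fermat.Agent.Inertia
  Fermat.Agent.EC

/-- The field of algebraic numbers. -/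
local notation "Qb" => AlgebraicClosure ℚ
/-- The absolute Galois group. -/
local notation "GQ" => (AlgebraicClosure ℚ ≃ₐ[ℚ] AlgebraicClosure ℚ)

variable {A : ValuationSubring Qb} {p : ℕ}

theorem zpow_pos_of_lt_one {Γ₀ : Type*} [LinearOrderedCommGroupWithZero Γ₀] {a : Γ₀} (ha0 : a ≠ 0)
    (ha : a < 1) {n : ℤ} (hn : a ^ n < 1) : ∃ m : ℕ, n = m + 1 := by
  have h1 : 0 < n := by
    by_contra hlt
    obtain ⟨k, hk⟩ : ∃ k : ℕ, n = -(k : ℤ) := ⟨(-n).toNat, by omega⟩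
    rw [hk, zpow_neg, zpow_natCast] at hn
    have h2 : 1 ≤ (a ^ k)⁻¹ :=
      (one_le_inv₀ (zero_lt_iff.mpr (pow_ne_zero _ ha0))).mpr (pow_le_one₀ zero_le ha.le)
    exact absurd hn (not_lt.mpr h2)
  exact ⟨(n - 1).toNat, by omega⟩

theorem unr_inertia (hp : p.Prime) (hA : A.LiesOverPrime p) :
    Unr (A.inertiaSubgroupIn ℚ) A p where
  prime := hp
  ne_zero := by exact_mod_cast hp.ne_zero
  lt_one := hA
  res g a ha := EC.inertia_residue g.2 ((A.valuation_le_one_iff a).mpr ha)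
  le x hx hlt := by
    have hlt1 : A.valuation (p : Qb) < 1 := hA
    have hp0 : (p : Qb) ≠ 0 := by exact_mod_cast hp.ne_zero
    have hvp0 : A.valuation (p : Qb) ≠ 0 := (Valuation.ne_zero_iff _).mpr hp0
    by_cases hx0 : x = 0
    · rw [hx0, map_zero]; exact zero_le
    obtain ⟨n, hn⟩ := exists_zpow A hp hA (mem_KI.mpr fun σ hσ => hx ⟨σ, hσ⟩) hx0
    rw [hn] at hlt ⊢
    obtain ⟨m, rfl⟩ := zpow_pos_of_lt_one hvp0 hlt1 hlt
    rw [zpow_add₀ hvp0, zpow_one, zpow_natCast]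
    exact mul_le_of_le_one_left' (pow_le_one₀ zero_le hlt1.le)

theorem val_root (hm : 0 < p) {ζ : Qb} (hζ : ζ ^ p = 1) : A.valuation ζ = 1 := by
  have := congrArg A.valuation hζ
  rw [map_pow, map_one] at this
  exact (pow_eq_one_iff_of_ne_zero' hm.ne').mp this

theorem val_one_sub_pow_le {ζ : Qb} (hζ : A.valuation ζ ≤ 1) (k : ℕ) :
    A.valuation (1 - ζ ^ k) ≤ A.valuation (1 - ζ) := by
  have h1 : 1 - ζ ^ k = (1 - ζ) * ∑ i ∈ Finset.range k, ζ ^ i := by
    rw [mul_neg_geom_sum]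
  rw [h1, map_mul]
  refine mul_le_of_le_one_right' (Valuation.map_sum_le _ fun i _ => ?_)
  rw [map_pow]
  exact pow_le_one₀ zero_le hζ

/-- The valuation of `ζ - 1`. -/
theorem val_zeta (hp : p.Prime) {ζ : Qb} (hζ : IsPrimitiveRoot ζ p) :
    A.valuation (1 - ζ) ^ (p - 1) = A.valuation (p : Qb) := by
  obtain ⟨n, rfl⟩ : ∃ n, p = n + 1 := ⟨p - 1, by have := hp.one_lt; omega⟩
  have h1 := hζ.prod_one_sub_pow_eq_order
  have h2 := congrArg A.valuation h1
  rw [map_prod] at h2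
  have hv : A.valuation ζ ≤ 1 := (val_root hp.pos hζ.pow_eq_one).le
  have h3 : ∀ k ∈ Finset.range n, A.valuation (1 - ζ ^ (k + 1)) = A.valuation (1 - ζ) := by
    intro k hk
    rw [Finset.mem_range] at hk
    refine le_antisymm (val_one_sub_pow_le hv _) ?_
    have hcop : (k + 1).Coprime (n + 1) := by
      rw [Nat.coprime_comm]
      exact (Nat.Prime.coprime_iff_not_dvd hp).mpr fun h => by
        have := Nat.le_of_dvd (by omega) h
        omega
    have hprim := hζ.pow_of_coprime (k + 1) hcop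
    obtain ⟨j, -, hj⟩ := hprim.eq_pow_of_pow_eq_one hζ.pow_eq_one
    have h4 : A.valuation (ζ ^ (k + 1)) ≤ 1 := by
      rw [map_pow]
      exact pow_le_one₀ zero_le hv
    have h5 := val_one_sub_pow_le (A := A) h4 j
    rwa [hj] at h5
  rw [Finset.prod_congr rfl h3, Finset.prod_const, Finset.card_range] at h2
  rw [Nat.add_sub_cancel, h2]
  push_cast
  rfl

/-- The inertia group moves the `p`-th roots of unity. -/
theorem exists_inertia_ne (hp : p.Prime) (hp2 : p ≠ 2) (hA : A.LiesOverPrime p) {ζ : Qb}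
    (hζ : IsPrimitiveRoot ζ p) : ∃ σ ∈ A.inertiaSubgroupIn ℚ, σ ζ ≠ ζ := by
  by_contra hcon
  push Not at hcon
  have hU := unr_inertia hp hA
  have h1 := val_zeta (A := A) hp hζ
  have hvp0 : A.valuation (p : Qb) ≠ 0 := (Valuation.ne_zero_iff _).mpr hU.ne_zero
  have h2 : A.valuation (1 - ζ) < 1 := by
    by_contra hge
    rw [not_lt] at hge
    have h3 : 1 ≤ A.valuation (1 - ζ) ^ (p - 1) := one_le_pow₀ hge
    rw [h1] at h3
    exact absurd hU.lt_one (not_lt.mpr h3)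
  have h3 := hU.le (1 - ζ) (fun g => by
    change (g : GQ) (1 - ζ) = 1 - ζ
    rw [map_sub, map_one, hcon g g.2]) h2
  have h4 : A.valuation (p : Qb) ≤ A.valuation (p : Qb) ^ (p - 1) := by
    conv_lhs => rw [← h1]
    exact pow_le_pow_left₀ zero_le h3 _
  have hp3 := hp.two_le
  have h5 : A.valuation (p : Qb) ^ (p - 1) < A.valuation (p : Qb) :=
    pow_lt_self_of_lt_one₀ (zero_lt_iff.mpr hvp0) hU.lt_one (by omega)
  exact lt_irrefl _ (h4.trans_lt h5)

/-- A cyclotomic exponent. -/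
theorem exists_cyc_exponent (hp : p.Prime) (hp2 : p ≠ 2) (hA : A.LiesOverPrime p) :
    ∃ σ ∈ A.inertiaSubgroupIn ℚ, ∃ a : ℕ, (∀ μ : Qb, μ ^ p ^ 1 = 1 → σ μ = μ ^ a) ∧
      ¬ (p : ℤ) ∣ (a : ℤ) - 1 := by
  have : NeZero p := ⟨hp.ne_zero⟩
  obtain ⟨ζ, hζ⟩ := HasEnoughRootsOfUnity.exists_primitiveRoot Qb p
  obtain ⟨σ, hσ, hne⟩ := exists_inertia_ne hp hp2 hA hζ
  have h1 : (σ ζ) ^ p = 1 := by rw [← map_pow, hζ.pow_eq_one, map_one]
  obtain ⟨a, -, ha⟩ := hζ.eq_pow_of_pow_eq_one h1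
  refine ⟨σ, hσ, a, fun μ hμ => ?_, fun hdvd => hne ?_⟩
  · rw [pow_one] at hμ
    obtain ⟨i, -, rfl⟩ := hζ.eq_pow_of_pow_eq_one hμ
    rw [map_pow, ← ha, ← pow_mul, ← pow_mul, mul_comm]
  · rw [← ha]
    have h2 : ζ ^ ((a : ℤ) - 1) = 1 := (hζ.zpow_eq_one_iff_dvd _).mpr hdvd
    have h3 : ζ ≠ 0 := hζ.ne_zero hp.ne_zero
    rw [zpow_sub₀ h3, zpow_one, zpow_natCast, div_eq_one_iff_eq h3] at h2
    exact h2

end Fermat.Agent.Conn
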