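import Mathlib
import Fermat.Agent.Conn.Zeta
import Fermat.Agent.EFrob.Det
import Fermat.Agent.GaloisBasics.FrobeniusExists

/-!
# The characters of connected groups of level one
-/

set_option autoImplicit false
set_option linter.unusedSectionVars false
set_option linter.style.haveILetI false

noncomputable section

namespace Fermat.Agent.Conn

open Module Fermat.Agent.Flat Fermat.Agent.LG Fermat.Agent.GaloisBasics Fermat.Agent.Inertia
  Fermat.Agent.EC

/-- The field of algebraic numbers. -/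
local notation "Qb" => AlgebraicClosure ℚ
/-- The absolute Galois group. -/
local notation "GQ" => (AlgebraicClosure ℚ ≃ₐ[ℚ] AlgebraicClosure ℚ)

section LevelOne

variable {A : ValuationSubring Qb} {p : ℕ} {W : Type*} [AddCommGroup W]
  [DistribMulAction (A.inertiaSubgroupIn ℚ) W]

/-- The values of the minimal function on multiples. -/
theorem exists_delta {H : Subalgebra (OI A) (W → Qb)}
    (hH : IsHopfOrder (OI A) (A.inertiaSubgroupIn ℚ) H) (hval : ∀ f ∈ H, ∀ w, f w ∈ A)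
    {x : W} {f₀ : W → Qb} (hf₀ : f₀ ∈ H) (h00 : f₀ 0 = 0)
    (hc : ∀ f ∈ H, A.valuation (f x - f 0) ≤ A.valuation (f₀ x))
    (hc1 : A.valuation (f₀ x) < 1) (k : ℕ) :
    ∃ δ : Qb, A.valuation δ < 1 ∧ f₀ (k • x) = f₀ x * (k + δ) := by
  obtain ⟨β, hβ⟩ := newton hH hval hf₀ h00 hc
  refine ⟨∑ j ∈ Finset.Ico 2 (k + 1), (k.choose j : Qb) * (f₀ x ^ (j - 1) * β j), ?_, ?_⟩
  · refine Valuation.map_sum_lt _ one_ne_zero fun j hj => ?_
    rw [Finset.mem_Ico] at hj
    have hβ1 : A.valuation ((β j : A) : Qb) ≤ 1 := (A.valuation_le_one_iff _).mpr (β j).2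
    rw [map_mul, map_mul, map_pow]
    calc _ ≤ 1 * (A.valuation (f₀ x) ^ (j - 1) * 1) :=
          mul_le_mul' (valuation_natCast_le A _) (mul_le_mul' le_rfl hβ1)
      _ = A.valuation (f₀ x) ^ (j - 1) := by rw [one_mul, mul_one]
      _ < 1 := pow_lt_one₀ zero_le hc1 (by omega)
  · rw [hβ k, mul_add, Finset.mul_sum, mul_comm (k : Qb)]
    congr 1
    refine Finset.sum_congr rfl fun j hj => ?_
    rw [Finset.mem_Ico] at hj
    have h3 : f₀ x ^ j = f₀ x ^ (j - 1) * f₀ x := by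
      rw [← pow_succ]
      congr 1
      omega
    rw [h3]
    ring

theorem nsmul_congr {x : W} (hpx : p • x = 0) {a b : ℕ} (h : (a : ZMod p) = b) :
    a • x = b • x := by
  rw [ZMod.natCast_eq_natCast_iff] at h
  have key : ∀ c : ℕ, c • x = (c % p) • x := by
    intro c
    conv_lhs => rw [← Nat.mod_add_div c p]
    rw [add_smul, mul_comm, mul_smul, hpx, smul_zero, add_zero]
  rw [key a, key b, h]

/-- **Level one**: if inertia acts on a connected element by integers then it acts by the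
cyclotomic character. -/
theorem level_one (hp : p.Prime) (hA : A.LiesOverPrime p) {H : Subalgebra (OI A) (W → Qb)}
    (hH : IsHopfOrder (OI A) (A.inertiaSubgroupIn ℚ) H) (hval : ∀ f ∈ H, ∀ w, f w ∈ A)
    {x : W} (hx : x ≠ 0) (hred : x ∈ red A H) (hpx : p • x = 0)
    (hint : ∀ σ : A.inertiaSubgroupIn ℚ, ∃ a : ℕ, σ • x = a • x) {ζ : Qb}
    (hζ : IsPrimitiveRoot ζ p) (σ : A.inertiaSubgroupIn ℚ) {b : ℕ} (hb : (σ : GQ) ζ = ζ ^ b) :
    σ • x = b • x := by
  classical
  have hU := unr_inertia hp hA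
  have : Fact p.Prime := ⟨hp⟩
  have hvp : A.valuation (p : Qb) < 1 := hA
  obtain ⟨f₀, hf₀, h00, hc⟩ := exists_min' hH hval x
  have hc0 := value_ne_zero hH hx hc
  have hc1 : A.valuation (f₀ x) < 1 := by
    have := (mem_red_iff hH hval).mp hred f₀ hf₀
    rwa [h00, sub_zero] at this
  have hple := p_le hU hH hval hpx hf₀ h00 hc hc0 hc1
  have hδ := exists_delta hH hval hf₀ h00 hc hc1
  set c := f₀ x with hcdef
  -- the product
  let g : ZMod p → Qb := fun u => f₀ (u.val • x)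
  have hgval : ∀ u : (ZMod p)ˣ, A.valuation (g u) = A.valuation c := by
    intro u
    obtain ⟨δ, hδ1, hδ2⟩ := hδ (u : ZMod p).val
    have h1 : A.valuation (((u : ZMod p).val : Qb) + δ) = 1 := by
      have h2 : ¬ p ∣ (u : ZMod p).val := by
        intro h3
        have h4 : (((u : ZMod p).val : ℕ) : ZMod p) = 0 := (ZMod.natCast_eq_zero_iff _ _).mpr h3
        rw [ZMod.natCast_zmod_val] at h4
        exact u.ne_zero h4
      have h3 := v_nat_eq_one hp hvp h2
      rw [Valuation.map_add_eq_of_lt_left _ (by rw [h3]; exact hδ1), h3]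
    change A.valuation (f₀ _) = _
    rw [hδ2, map_mul, h1, mul_one]
  have hPval : A.valuation (∏ u : (ZMod p)ˣ, g u) = A.valuation c ^ (p - 1) := by
    rw [map_prod, Finset.prod_congr rfl fun u _ => hgval u, Finset.prod_const, Finset.card_univ,
      ZMod.card_units]
  have hPinv : ∀ τ : A.inertiaSubgroupIn ℚ, τ • (∏ u : (ZMod p)ˣ, g u) = ∏ u : (ZMod p)ˣ, g u := by
    intro τ
    obtain ⟨a, ha⟩ := hint τ
    have hap : (a : ZMod p) ≠ 0 := by
      intro h0
      have h1 : a • x = 0 • x := nsmul_congr hpx (by rw [h0, Nat.cast_zero])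
      rw [zero_smul] at h1
      rw [h1] at ha
      exact hx ((smul_eq_zero_iff_eq τ).mp ha)
    rw [Finset.smul_prod']
    refine Fintype.prod_equiv (Equiv.mulRight (Units.mk0 (a : ZMod p) hap)) _ _ fun u => ?_
    change τ • f₀ ((u : ZMod p).val • x) = f₀ (_ • x)
    rw [← hH.equiv τ f₀ hf₀, smul_comm τ, ha, ← mul_smul]
    congr 1
    refine nsmul_congr hpx ?_
    rw [ZMod.natCast_zmod_val, Nat.cast_mul, ZMod.natCast_zmod_val]
    rfl
  have hp1 : p - 1 ≠ 0 := by
    have := hp.two_le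
    omega
  have h2 := hU.le _ hPinv (by rw [hPval]; exact pow_lt_one₀ zero_le hc1 hp1)
  rw [hPval] at h2
  have h3 : A.valuation c ^ (p - 1) = A.valuation (p : Qb) := le_antisymm h2 hple
  rw [← val_zeta (A := A) hp hζ] at h3
  have h4 : A.valuation c = A.valuation (1 - ζ) := (pow_left_inj₀ zero_le zero_le hp1).mp h3
  have hζ1 : (1 - ζ) ≠ 0 := by
    intro h0
    rw [h0, map_zero, map_eq_zero] at h4
    exact hc0 h4
  -- the unit
  set u := c / (1 - ζ) with hu
  have hvu : A.valuation u = 1 := by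
    rw [hu, map_div₀, h4, div_self]
    exact (Valuation.ne_zero_iff _).mpr hζ1
  have hcu : c = u * (1 - ζ) := by rw [hu]; field_simp
  obtain ⟨a, ha⟩ := hint σ
  obtain ⟨δ, hδ1, hδ2⟩ := hδ a
  have h5 : (σ : GQ) c = c * (a + δ) := by
    rw [← hδ2, ← ha]
    exact (hH.equiv σ f₀ hf₀ x).symm
  have hgeom : (1 : Qb) - ζ ^ b = (1 - ζ) * ∑ i ∈ Finset.range b, ζ ^ i := by
    rw [mul_neg_geom_sum]
  have hvζ : A.valuation ζ ≤ 1 := (val_root hp.pos hζ.pow_eq_one).le
  have h6 : (σ : GQ) u * ∑ i ∈ Finset.range b, ζ ^ i = u * (a + δ) := by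
    have h7 : (σ : GQ) c = (σ : GQ) u * (1 - ζ ^ b) := by
      rw [hcu, map_mul, map_sub, map_one, hb]
    rw [h5, hgeom] at h7
    apply mul_right_cancel₀ hζ1
    rw [hcu] at h7
    linear_combination -h7
  have hS : A.valuation (∑ i ∈ Finset.range b, ζ ^ i) ≤ 1 :=
    Valuation.map_sum_le _ fun i _ => by
      rw [map_pow]; exact pow_le_one₀ zero_le hvζ
  have h7 : A.valuation ((σ : GQ) u - u) < 1 := inertia_residue σ.2 hvu.le
  have h8 : A.valuation ((a : Qb) + δ - ∑ i ∈ Finset.range b, ζ ^ i) < 1 := by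
    have h9 : u * ((a : Qb) + δ - ∑ i ∈ Finset.range b, ζ ^ i) =
        ((σ : GQ) u - u) * ∑ i ∈ Finset.range b, ζ ^ i := by
      linear_combination -h6
    have h10 := congrArg A.valuation h9
    rw [map_mul, hvu, one_mul, map_mul] at h10
    rw [h10]
    exact (mul_le_of_le_one_right' hS).trans_lt h7
  have hζlt : A.valuation (ζ - 1) < 1 := by
    rw [Valuation.map_sub_swap, ← h4]
    exact hc1
  have h9 : A.valuation ((∑ i ∈ Finset.range b, ζ ^ i) - b) < 1 := by
    have h10 : (∑ i ∈ Finset.range b, ζ ^ i) - (b : Qb) =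
        ∑ i ∈ Finset.range b, (ζ ^ i - 1) := by
      rw [Finset.sum_sub_distrib]
      simp
    rw [h10]
    refine Valuation.map_sum_lt _ one_ne_zero fun i _ => ?_
    rw [← geom_sum_mul ζ i, map_mul]
    exact (mul_le_of_le_one_left' (Valuation.map_sum_le _ fun j _ => by
      rw [map_pow]; exact pow_le_one₀ zero_le hvζ)).trans_lt hζlt
  have h10 : A.valuation (((a : ℤ) - (b : ℤ) : ℤ) : Qb) < 1 := by
    have h11 : (((a : ℤ) - (b : ℤ) : ℤ) : Qb) = ((a : Qb) + δ - ∑ i ∈ Finset.range b, ζ ^ i) +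
        ((∑ i ∈ Finset.range b, ζ ^ i) - b) - δ := by
      push_cast
      ring
    rw [h11]
    exact v_sub_lt (Valuation.map_add_lt _ h8 h9) hδ1
  rw [ha]
  refine nsmul_congr hpx ?_
  by_contra hne
  have h11 : ¬ (p : ℤ) ∣ ((a : ℤ) - (b : ℤ)) := by
    intro h12
    apply hne
    have h13 := (ZMod.intCast_zmod_eq_zero_iff_dvd ((a : ℤ) - (b : ℤ)) p).mpr h12
    push_cast at h13
    exact sub_eq_zero.mp h13
  have h12 : ¬ p ∣ ((a : ℤ) - (b : ℤ)).natAbs := by
    intro h13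
    exact h11 (Int.natCast_dvd.mpr h13)
  have h13 := v_nat_eq_one (K := Qb) hp hvp h12
  have h14 : A.valuation (((a : ℤ) - (b : ℤ) : ℤ) : Qb) = 1 := by
    rcases Int.natAbs_eq ((a : ℤ) - (b : ℤ)) with h15 | h15
    · rw [h15, Int.cast_natCast]; exact h13
    · rw [h15, Int.cast_neg, Int.cast_natCast, Valuation.map_neg]; exact h13
  rw [h14] at h10
  exact lt_irrefl _ h10

end LevelOne

section Tame

variable {A : ValuationSubring Qb} {p : ℕ} {W : Type*} [AddCommGroup W] [Finite W]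
  [DistribMulAction (A.inertiaSubgroupIn ℚ) W] {k : Type*} [Field k] [Finite k] [Module k W]

/-- The tame character: a faithful character of `kˣ`. -/
theorem exists_faithful (k : Type*) [Field k] [Finite k] {n : ℕ} [NeZero n] (hn : n = Nat.card kˣ) :
    ∃ j : kˣ →* Qbˣ, Function.Injective j ∧ ∀ a, j a ^ n = 1 := by
  have h1 : Nat.card (rootsOfUnity n Qb) = n := HasEnoughRootsOfUnity.natCard_rootsOfUnity Qb n
  have e : kˣ ≃* rootsOfUnity n Qb := mulEquivOfCyclicCardEq (by rw [h1, hn])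
  refine ⟨(rootsOfUnity n Qb).subtype.comp e.toMonoidHom,
    (rootsOfUnity n Qb).subtype_injective.comp e.injective, fun a => ?_⟩
  exact (e a).2

/-- The Lagrange resolvent. -/
theorem exists_resolvent {H : Subalgebra (OI A) (W → Qb)}
    (hH : IsHopfOrder (OI A) (A.inertiaSubgroupIn ℚ) H) {x : W} (hx : x ≠ 0)
    (hcomm : ∀ (σ : A.inertiaSubgroupIn ℚ) (a : k) (w : W), σ • (a • w) = a • (σ • w))
    {χ : A.inertiaSubgroupIn ℚ → kˣ} (hχ : ∀ σ, σ • x = (χ σ : k) • x)
    {j : kˣ →* Qbˣ} (hfix : ∀ (σ : A.inertiaSubgroupIn ℚ) (a : kˣ), σ • (j a : Qb) = (j a : Qb)) :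
    ∃ y : Qb, y ≠ 0 ∧ ∀ σ : A.inertiaSubgroupIn ℚ, σ • y = (j (χ σ) : Qb) * y := by
  classical
  have := Fintype.ofFinite kˣ
  have := Fintype.ofFinite W
  let Y : (W → Qb) → Qb := fun f => ∑ a : kˣ, ((j a)⁻¹ : Qbˣ) * f ((a : k) • x)
  have hY : ∃ f ∈ H, Y f ≠ 0 := by
    by_contra hcon
    push Not at hcon
    have h1 : ∀ f : W → Qb, Y f = 0 := by
      intro f
      have h2 := span_of_sep H hH.sep f
      induction h2 using Submodule.span_induction with
      | mem f hf => exact hcon f hf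
      | zero => simp [Y]
      | add f g _ _ hf hg =>
        have : Y (f + g) = Y f + Y g := by
          simp only [Y, Pi.add_apply, mul_add, Finset.sum_add_distrib]
        rw [this, hf, hg, add_zero]
      | smul c f _ hf =>
        have : Y (c • f) = c * Y f := by
          simp only [Y, Pi.smul_apply, smul_eq_mul, Finset.mul_sum]
          refine Finset.sum_congr rfl fun a _ => ?_
          ring
        rw [this, hf, mul_zero]
    have h2 := h1 (Pi.single x 1)
    have h3 : Y (Pi.single x 1) = 1 := by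
      simp only [Y]
      rw [Finset.sum_eq_single 1]
      · simp
      · intro a _ ha
        rw [Pi.single_eq_of_ne, mul_zero]
        intro h4
        apply ha
        have h5 : ((a : k) - 1) • x = 0 := by rw [sub_smul, one_smul, h4, sub_self]
        rcases smul_eq_zero.mp h5 with h6 | h6
        · exact Units.ext (sub_eq_zero.mp h6)
        · exact absurd h6 hx
      · intro h
        exact absurd (Finset.mem_univ _) h
    rw [h2] at h3
    exact zero_ne_one h3
  obtain ⟨f, hf, hfY⟩ := hY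
  refine ⟨Y f, hfY, fun σ => ?_⟩
  have h1 : σ • Y f = ∑ a : kˣ, ((j a)⁻¹ : Qbˣ) * f (((a * χ σ : kˣ) : k) • x) := by
    simp only [Y]
    rw [Finset.smul_sum]
    refine Finset.sum_congr rfl fun a _ => ?_
    rw [smul_mul', ← hH.equiv σ f hf, hcomm, hχ, ← mul_smul, Units.val_mul]
    congr 1
    rw [← map_inv]
    exact hfix σ a⁻¹
  rw [h1]
  simp only [Y]
  rw [Finset.mul_sum]
  refine Fintype.sum_equiv (Equiv.mulRight (χ σ)) _ _ fun a => ?_
  simp only [Equiv.coe_mulRight]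
  rw [← mul_assoc]
  congr 1
  rw [← Units.val_mul]
  congr 1
  rw [map_mul, mul_inv_rev, mul_inv_cancel_left]

/-- **The character is of level one.** -/
theorem char_pow (hp : p.Prime) (hA : A.LiesOverPrime p) [CharP k p]
    {H : Subalgebra (OI A) (W → Qb)}
    (hH : IsHopfOrder (OI A) (A.inertiaSubgroupIn ℚ) H) {x : W} (hx : x ≠ 0)
    (hcomm : ∀ (σ : A.inertiaSubgroupIn ℚ) (a : k) (w : W), σ • (a • w) = a • (σ • w))
    {χ : GQ → kˣ} (hχ : ∀ σ : A.inertiaSubgroupIn ℚ, σ • x = (χ σ : k) • x)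
    (hconj : ∀ φ ∈ A.decompositionSubgroup ℚ, ∀ σ ∈ A.inertiaSubgroupIn ℚ,
      χ (φ * σ * φ⁻¹) = χ σ) {σ : GQ} (hσ : σ ∈ A.inertiaSubgroupIn ℚ) :
    χ σ ^ p = χ σ := by
  classical
  have := Fintype.ofFinite k
  have hp' : Fact p.Prime := ⟨hp⟩
  set n := Nat.card kˣ with hn
  have hn0 : n ≠ 0 := Nat.card_pos.ne'
  have hnz : NeZero n := ⟨hn0⟩
  have hpn : ¬ p ∣ n := by
    intro h
    have h1 : n = Fintype.card k - 1 := by rw [hn, Nat.card_eq_fintype_card, Fintype.card_units]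
    have h2 : p ∣ Fintype.card k := by
      obtain ⟨m, -, hm⟩ := FiniteField.card k p
      rw [hm]
      exact dvd_pow_self p m.ne_zero
    have h3 := Fintype.card_pos (α := k)
    rw [h1] at h
    have h4 : p ∣ 1 := by
      have h5 := Nat.dvd_sub h2 h
      have h6 : Fintype.card k - (Fintype.card k - 1) = 1 := by omega
      rwa [h6] at h5
    exact hp.one_lt.ne' (Nat.dvd_one.mp h4)
  obtain ⟨j, hjinj, hjn⟩ := exists_faithful k hn
  have hjn' : ∀ a : kˣ, (j a : Qb) ^ n = 1 := fun a => by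
    rw [← Units.val_pow_eq_pow_val, hjn, Units.val_one]
  have hfixroot : ∀ σ ∈ A.inertiaSubgroupIn ℚ, ∀ η : Qb, η ^ n = 1 → σ η = η := by
    intro σ hσ η hη
    exact mem_KI.mp (root_mem_KI hp hA hpn hη) σ hσ
  obtain ⟨y, hy0, hy⟩ := exists_resolvent hH hx hcomm (χ := fun σ => χ σ) hχ
    (j := j) fun σ a => hfixroot σ σ.2 _ (hjn' a)
  have hy' : ∀ σ ∈ A.inertiaSubgroupIn ℚ, σ y = (j (χ σ) : Qb) * y := fun σ hσ => hy ⟨σ, hσ⟩
  have hyn : y ^ n ∈ KI A := by
    rw [mem_KI]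
    intro σ hσ
    rw [map_pow, hy' σ hσ, mul_pow, hjn', one_mul]
  obtain ⟨m, hm⟩ := exists_zpow A hp hA hyn (pow_ne_zero _ hy0)
  obtain ⟨t, ht⟩ := IsAlgClosed.exists_pow_nat_eq (p : Qb) (Nat.pos_of_ne_zero hn0)
  have hpQ : (p : Qb) ≠ 0 := by exact_mod_cast hp.ne_zero
  have ht0 : t ≠ 0 := by
    rintro rfl
    rw [zero_pow hn0] at ht
    exact hpQ ht.symm
  have hvy : A.valuation y = A.valuation t ^ m := by
    have h1 : A.valuation y ^ n = (A.valuation t ^ m) ^ n := by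
      rw [← map_pow, hm, ← ht, map_pow, ← zpow_natCast, ← zpow_mul, ← zpow_natCast, ← zpow_mul,
        mul_comm]
    exact (pow_left_inj₀ zero_le zero_le hn0).mp h1
  -- the tame character
  have hθn : ∀ σ : GQ, (σ t / t) ^ n = 1 := by
    intro σ
    rw [div_pow, ← map_pow, ht, map_natCast, div_self hpQ]
  have hkey : ∀ σ ∈ A.inertiaSubgroupIn ℚ, (j (χ σ) : Qb) = (σ t / t) ^ m := by
    intro σ hσ
    set θ := σ t / t with hθ
    have hθ0 : θ ≠ 0 := by
      intro h0
      have := hθn σ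
      rw [← hθ, h0, zero_pow hn0] at this
      exact zero_ne_one this
    set w := y / t ^ m with hw
    have hw1 : A.valuation w = 1 := by
      rw [hw, map_div₀, map_zpow₀, hvy, div_self]
      exact zpow_ne_zero _ ((Valuation.ne_zero_iff _).mpr ht0)
    have hσt : σ t = θ * t := by rw [hθ]; field_simp
    have htm : t ^ m ≠ 0 := zpow_ne_zero _ ht0
    have hθm : θ ^ m ≠ 0 := zpow_ne_zero _ hθ0
    have hσw : σ w = ((j (χ σ) : Qb) / θ ^ m) * w := by
      rw [hw, map_div₀, map_zpow₀, hσt, hy' σ hσ, mul_zpow]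
      field_simp
    have h1 := inertia_residue hσ hw1.le
    have h2 : σ w - w = ((j (χ σ) : Qb) / θ ^ m - 1) * w := by rw [hσw]; ring
    rw [h2, map_mul, hw1, mul_one] at h1
    have h3 : ((j (χ σ) : Qb) / θ ^ m) ^ n = 1 := by
      rw [div_pow, hjn', ← zpow_natCast, ← zpow_mul, mul_comm, zpow_mul, zpow_natCast, hθ, hθn,
        one_zpow, div_one]
    have h4 := root_eq_of_congr hp hA hpn h3 (one_pow n) h1
    exact (div_eq_one_iff_eq hθm).mp h4
  -- Frobenius
  obtain ⟨φ, hφ⟩ := exists_isFrobeniusAt hp A hA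
  have hφD := hφ.mem_decompositionSubgroup
  have hconjI : φ * σ * φ⁻¹ ∈ A.inertiaSubgroupIn ℚ := by
    have := Fermat.Agent.Flat.inertia_conj (inv_mem hφD) hσ
    rwa [inv_inv] at this
  have h1 : (φ * σ * φ⁻¹) t = (σ t / t) ^ p * t := by
    set ξ := φ⁻¹ t / t with hξ
    have hξn : ξ ^ n = 1 := hθn φ⁻¹
    have h2 : φ⁻¹ t = ξ * t := by rw [hξ]; field_simp
    have h3 : σ (φ⁻¹ t) = (σ t / t) * φ⁻¹ t := by
      rw [h2, map_mul, hfixroot σ hσ ξ hξn]
      field_simp
    have h4 : (φ * σ * φ⁻¹) t = φ (σ (φ⁻¹ t)) := rfl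
    have h5 : φ (φ⁻¹ t) = t := φ.apply_symm_apply t
    rw [h4, h3, map_mul, h5, EFrob.frobenius_root hp hA hφ hpn (hθn σ)]
  have h2 := hkey _ hconjI
  rw [h1, hconj φ hφD σ hσ, mul_div_assoc, div_self ht0, mul_one, ← zpow_natCast, ← zpow_mul,
    mul_comm, zpow_mul, ← hkey σ hσ, zpow_natCast] at h2
  apply hjinj
  apply Units.ext
  rw [map_pow, Units.val_pow_eq_pow_val]
  exact h2.symm

/-- **Connected lines are of multiplicative type.** -/
theorem char_eq_cyc (hp : p.Prime) (hA : A.LiesOverPrime p) [CharP k p]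
    {H : Subalgebra (OI A) (W → Qb)}
    (hH : IsHopfOrder (OI A) (A.inertiaSubgroupIn ℚ) H) (hval : ∀ f ∈ H, ∀ w, f w ∈ A)
    {x : W} (hx : x ≠ 0) (hred : x ∈ red A H)
    (hcomm : ∀ (σ : A.inertiaSubgroupIn ℚ) (a : k) (w : W), σ • (a • w) = a • (σ • w))
    {χ : GQ → kˣ} (hχ : ∀ σ : A.inertiaSubgroupIn ℚ, σ • x = (χ σ : k) • x)
    (hconj : ∀ φ ∈ A.decompositionSubgroup ℚ, ∀ σ ∈ A.inertiaSubgroupIn ℚ,
      χ (φ * σ * φ⁻¹) = χ σ) {ζ : Qb}
    (hζ : IsPrimitiveRoot ζ p) (σ : A.inertiaSubgroupIn ℚ) {b : ℕ} (hb : (σ : GQ) ζ = ζ ^ b) :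
    (χ σ : k) = b := by
  have hp' : Fact p.Prime := ⟨hp⟩
  have hsm : ∀ a : ℕ, (a : k) • x = a • x := fun a => Nat.cast_smul_eq_nsmul k a x
  have hpx : p • x = 0 := by rw [← hsm, CharP.cast_eq_zero, zero_smul]
  have h1 : σ • x = b • x := by
    refine level_one hp hA hH hval hx hred hpx (fun τ => ?_) hζ σ hb
    have h2 := char_pow hp hA hH hx hcomm hχ hconj τ.2
    have h3 : ((χ τ : kˣ) : k) ∈ (⊥ : Subfield k) := by
      rw [Subfield.mem_bot_iff_pow_eq_self k p]
      have := congrArg (Units.val) h2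
      rwa [Units.val_pow_eq_pow_val] at this
    obtain ⟨m, hm⟩ := (mem_bot_iff_intCast p k).mp h3
    refine ⟨(m : ZMod p).val, ?_⟩
    rw [hχ, ← hm, ← hsm]
    congr 1
    rw [ZMod.natCast_val, ZMod.cast_intCast']
  rw [hχ, ← hsm] at h1
  have h2 : ((χ σ : k) - b) • x = 0 := by rw [sub_smul, h1, sub_self]
  exact sub_eq_zero.mp ((smul_eq_zero.mp h2).resolve_right hx)

end Tame

end Fermat.Agent.Conn
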