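import Mathlib
import Fermat.Agent.Conn.Zeta

/-!
# Flat and residually ordinary implies ordinary
-/

set_option autoImplicit false
set_option linter.unusedSectionVars false
set_option linter.style.haveILetI false

noncomputable section

open scoped TensorProduct

namespace Fermat.Agent.Conn

open Module Fermat.Agent.Flat Fermat.Agent.LG Fermat.Agent.GaloisBasics Fermat.Agent.Inertia
  Fermat.Agent.EC IsLocalRing

/-- The field of algebraic numbers. -/
local notation "Qb" => AlgebraicClosure ℚ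
/-- The absolute Galois group. -/
local notation "GQ" => (AlgebraicClosure ℚ ≃ₐ[ℚ] AlgebraicClosure ℚ)

section Lin

variable {T M : Type*} [CommRing T] [AddCommGroup M] [Module T M]

theorem repr_mem_of_smul_top {ι : Type*} (b : Basis ι T M) {I : Ideal T} {x : M}
    (hx : x ∈ I • (⊤ : Submodule T M)) (i : ι) : b.repr x i ∈ I := by
  refine Submodule.smul_induction_on hx ?_ ?_
  · intro r hr n _
    rw [map_smul, Finsupp.smul_apply, smul_eq_mul]
    exact I.mul_mem_right _ hr
  · intro x y hx hy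
    rw [map_add, Finsupp.add_apply]
    exact I.add_mem hx hy

theorem mem_smul_top_of_repr {ι : Type*} [Fintype ι] (b : Basis ι T M) {I : Ideal T} {x : M}
    (hx : ∀ i, b.repr x i ∈ I) : x ∈ I • (⊤ : Submodule T M) := by
  rw [← b.sum_repr x]
  exact Submodule.sum_mem _ fun i _ => Submodule.smul_mem_smul (hx i) Submodule.mem_top

variable [IsLocalRing T]

/-- Extension of a unimodular vector to a basis. -/
theorem exists_basis_of_ne (e : Basis (Fin 2) T M) {x : M} {i : Fin 2}
    (hi : e.repr x i ∉ maximalIdeal T) : ∃ b : Basis (Fin 2) T M, b 0 = x := by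
  have hu : IsUnit (e.repr x i) := by
    by_contra h
    exact hi ((mem_maximalIdeal _).mpr h)
  have key : ∃ y : M, IsUnit (e.det ![x, y]) := by
    refine ⟨e (1 - i), ?_⟩
    rw [Basis.det_apply, Matrix.det_fin_two]
    simp only [Basis.toMatrix_apply, Matrix.cons_val_zero, Matrix.cons_val_one, Basis.repr_self]
    fin_cases i
    · simpa [Finsupp.single_apply] using hu
    · simpa [Finsupp.single_apply] using hu
  obtain ⟨y, hy⟩ := key
  obtain ⟨h1, h2⟩ := (Module.Basis.is_basis_iff_det e).mpr hy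
  exact ⟨Basis.mk h1 h2.ge, by rw [Basis.mk_apply]; rfl⟩

end Lin

variable {T : Type} [CommRing T] [IsLocalRing T]

/-- The submodule generated by the elements moved by inertia. -/
def augM (ρ : GaloisRepAdic T) (A : ValuationSubring Qb) : Submodule T ρ.V :=
  Submodule.span T {x | ∃ σ ∈ A.inertiaSubgroupIn ℚ, ∃ v, x = ρ.ρ σ v - v}

variable (ρ : GaloisRepAdic T) {A : ValuationSubring Qb} {p : ℕ}

theorem augM_stable {σ : GQ} (hσ : σ ∈ A.decompositionSubgroup ℚ) {v : ρ.V}
    (hv : v ∈ augM ρ A) : ρ.ρ σ v ∈ augM ρ A := by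
  have h1 : augM ρ A ≤ (augM ρ A).comap (ρ.ρ σ) := by
    conv_lhs => rw [augM]
    rw [Submodule.span_le]
    rintro _ ⟨τ, hτ, v, rfl⟩
    change ρ.ρ σ (ρ.ρ τ v - v) ∈ augM ρ A
    have h2 : ρ.ρ σ (ρ.ρ τ v - v) = ρ.ρ (σ * τ * σ⁻¹) (ρ.ρ σ v) - ρ.ρ σ v := by
      rw [map_sub]
      congr 1
      rw [← Module.End.mul_apply, ← Module.End.mul_apply, ← map_mul, ← map_mul]
      congr 2
      group
    rw [h2]
    refine Submodule.subset_span ⟨_, ?_, _, rfl⟩
    have h3 := inertia_conj (inv_mem hσ) hτ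
    rwa [inv_inv] at h3
  exact h1 hv

/-- coordinates in the augmentation: inductive step -/
theorem coord_step [IsNoetherianRing T] (hp : p.Prime) (hp2 : p ≠ 2) (hA : A.LiesOverPrime p)
    (hflat : ρ.IsFlatAt p) (hpm : (p : T) ∈ maximalIdeal T) (b : Basis (Fin 2) T ρ.V)
    (hb0 : b 0 ∈ augM ρ A) {k : ℕ} (hk : 1 ≤ k)
    (ih : ∀ x ∈ augM ρ A, b.repr x 1 ∈ maximalIdeal T ^ k) {x : ρ.V} (hx : x ∈ augM ρ A) :
    b.repr x 1 ∈ maximalIdeal T ^ (k + 1) := by
  classical
  set 𝔪 := maximalIdeal T with h𝔪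
  have hres : Finite (T ⧸ 𝔪) := hflat.1
  have hfinT : Finite (T ⧸ 𝔪 ^ (k + 1)) :=
    Ideal.finite_quotient_pow (IsNoetherian.noetherian 𝔪) _
  set V := Lev ρ (𝔪 ^ (k + 1)) with hV
  set π := toLev ρ (𝔪 ^ (k + 1)) with hπ
  have hπs : Function.Surjective π := toLev_surjective ρ _
  have hkill : ∀ t ∈ 𝔪 ^ (k + 1), ∀ v : V, t • v = 0 := by
    intro t ht v
    obtain ⟨m, rfl⟩ := hπs v
    rw [← map_smul]
    exact (toLev_eq_zero ρ _).mpr (Submodule.smul_mem_smul ht Submodule.mem_top)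
  have hfinV : Finite V := by
    let g : (Fin 2 → T ⧸ 𝔪 ^ (k + 1)) → V := fun x => ∑ i, (x i).out • π (b i)
    refine Finite.of_surjective g fun v => ?_
    obtain ⟨m, rfl⟩ := hπs v
    refine ⟨fun i => Ideal.Quotient.mk _ (b.repr m i), ?_⟩
    conv_rhs => rw [← b.sum_repr m]
    rw [map_sum]
    refine Finset.sum_congr rfl fun i _ => ?_
    rw [map_smul, ← sub_eq_zero, ← sub_smul]
    refine hkill _ ?_ _
    rw [← Ideal.Quotient.mk_eq_mk_iff_sub_mem]
    exact Quotient.out_eq _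
  have hpow : ∀ v : V, p ^ (k + 1) • v = 0 := by
    intro v
    rw [← Nat.cast_smul_eq_nsmul T]
    refine hkill _ ?_ v
    rw [Nat.cast_pow]
    exact Ideal.pow_mem_pow hpm _
  have hdvr := isDVR_OI hp hA
  have hU := unr_inertia hp hA
  obtain ⟨H, hH⟩ := isFlat_inertia hp hA (isFlat_lev ρ (𝔪 ^ (k + 1)) hflat hfinT)
  have hval : ∀ f ∈ H, ∀ w, f w ∈ A := fun f hf w => hH.value_mem hf w
  -- the subgroup
  let Y : AddSubgroup V := ((𝔪 ^ k • (⊤ : Submodule T ρ.V)).map π).toAddSubgroup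
  have hY : ∀ (g : A.inertiaSubgroupIn ℚ), ∀ v ∈ Y, g • v ∈ Y := by
    rintro g _ ⟨m, hm, rfl⟩
    refine ⟨ρ.ρ g m, ?_, rfl⟩
    have h1 : 𝔪 ^ k • (⊤ : Submodule T ρ.V) ≤ (𝔪 ^ k • (⊤ : Submodule T ρ.V)).comap (ρ.ρ g) := by
      rw [← Submodule.map_le_iff_le_comap, Submodule.map_smul'']
      exact Submodule.smul_mono le_rfl le_top
    exact h1 hm
  -- the image of the augmentation
  have haug : ∀ x ∈ augM ρ A, π x ∈ aug (A.inertiaSubgroupIn ℚ) (⊤ : AddSubgroup V) := by
    intro x hx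
    have hx' : x ∈ Submodule.span T {x | ∃ σ ∈ A.inertiaSubgroupIn ℚ, ∃ v, x = ρ.ρ σ v - v} := hx
    clear hx
    induction hx' using Submodule.span_induction with
    | mem x hx =>
      obtain ⟨σ, hσ, v, rfl⟩ := hx
      exact AddSubgroup.subset_closure ⟨⟨σ, hσ⟩, π v, AddSubgroup.mem_top _, by
        rw [map_sub]; rfl⟩
    | zero => rw [map_zero]; exact zero_mem _
    | add x y _ _ hx hy => rw [map_add]; exact add_mem hx hy
    | smul t x _ hx =>
      rw [map_smul]
      have h1 : ∀ y ∈ aug (A.inertiaSubgroupIn ℚ) (⊤ : AddSubgroup V),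
          t • y ∈ aug (A.inertiaSubgroupIn ℚ) (⊤ : AddSubgroup V) := by
        intro y hy
        refine AddSubgroup.closure_induction (p := fun y _ => t • y ∈ _) ?_ ?_ ?_ ?_ hy
        · rintro _ ⟨g, v, -, rfl⟩
          refine AddSubgroup.subset_closure ⟨g, t • v, AddSubgroup.mem_top _, ?_⟩
          rw [smul_sub]
          congr 1
          exact (map_smul (ρ.levelAction _ g) t v).symm
        · rw [smul_zero]; exact zero_mem _
        · intro y z _ _ hy hz
          rw [smul_add]; exact add_mem hy hz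
        · intro y _ hy
          rw [smul_neg]; exact neg_mem hy
      exact h1 _ hx
  set c := b.repr x 1 with hc
  have hcx : c • b 1 ∈ augM ρ A := by
    have h1 : c • b 1 = x - b.repr x 0 • b 0 := by
      conv_rhs => rw [← b.sum_repr x]
      rw [Fin.sum_univ_two]
      simp only [map_add, map_smul, Finsupp.add_apply, Finsupp.smul_apply, Basis.repr_self,
        Finsupp.single_apply]
      simp [hc]
    rw [h1]
    exact sub_mem hx (Submodule.smul_mem _ _ hb0)
  have hcY : π (c • b 1) ∈ Y :=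
    ⟨c • b 1, Submodule.smul_mem_smul (ih x hx) Submodule.mem_top, rfl⟩
  have h1 := mem_aug_of_mem hU hp2 hH hval hpow Y hY hcY (haug _ hcx)
  -- the augmentation of `Y`
  have h2 : ∀ y ∈ aug (A.inertiaSubgroupIn ℚ) Y, ∃ m, π m = y ∧ b.repr m 1 ∈ 𝔪 ^ (k + 1) := by
    intro y hy
    refine AddSubgroup.closure_induction
      (p := fun y _ => ∃ m, π m = y ∧ b.repr m 1 ∈ 𝔪 ^ (k + 1)) ?_ ?_ ?_ ?_ hy
    · rintro _ ⟨g, _, ⟨m, hm, rfl⟩, rfl⟩
      refine ⟨ρ.ρ g m - m, by rw [map_sub]; rfl, ?_⟩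
      have hm' : m ∈ 𝔪 ^ k • (⊤ : Submodule T ρ.V) := hm
      refine Submodule.smul_induction_on hm' ?_ ?_
      · intro r hr n _
        have h3 : ρ.ρ g (r • n) - r • n = r • (ρ.ρ g n - n) := by
          rw [map_smul, smul_sub]
        rw [h3, map_smul, Finsupp.smul_apply, smul_eq_mul, pow_succ]
        refine Ideal.mul_mem_mul hr ?_
        have h4 := ih _ (Submodule.subset_span ⟨g, g.2, n, rfl⟩ : ρ.ρ g n - n ∈ augM ρ A)
        exact Ideal.pow_le_self (by omega : k ≠ 0) h4
      · intro x y hx hy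
        have h3 : ρ.ρ g (x + y) - (x + y) = (ρ.ρ g x - x) + (ρ.ρ g y - y) := by
          rw [map_add]; abel
        rw [h3, map_add, Finsupp.add_apply]
        exact Ideal.add_mem _ hx hy
    · exact ⟨0, map_zero _, by rw [map_zero, Finsupp.zero_apply]; exact zero_mem _⟩
    · rintro y z _ _ ⟨m, hm, hm'⟩ ⟨n, hn, hn'⟩
      exact ⟨m + n, by rw [map_add, hm, hn], by
        rw [map_add, Finsupp.add_apply]; exact Ideal.add_mem _ hm' hn'⟩
    · rintro y _ ⟨m, hm, hm'⟩
      exact ⟨-m, by rw [map_neg, hm], by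
        rw [map_neg, Finsupp.neg_apply]; exact neg_mem hm'⟩
  obtain ⟨m, hm, hm'⟩ := h2 _ h1
  have h3 : c • b 1 - m ∈ 𝔪 ^ (k + 1) • (⊤ : Submodule T ρ.V) := by
    rw [← toLev_eq_zero, map_sub, ← hm]
    exact sub_self _
  have h4 := repr_mem_of_smul_top b h3 1
  rw [map_sub, Finsupp.sub_apply, map_smul, Finsupp.smul_apply, Basis.repr_self,
    Finsupp.single_eq_same, smul_eq_mul, mul_one] at h4
  have h5 := Ideal.add_mem _ h4 hm'
  rwa [sub_add_cancel] at h5

theorem exists_residual_line (hA : A.LiesOverPrime p)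
    (hres : (GaloisRepAdic.ofResidualGaloisRep ρ.residual).IsOrdinaryAt p) :
    ∃ (Lb : Submodule (ResidueField T) (ResidueField T ⊗[T] ρ.V))
      (w : ResidueField T ⊗[T] ρ.V), Lb = ResidueField T ∙ w ∧
      ∀ σ ∈ A.inertiaSubgroupIn ℚ, ∀ v : ResidueField T ⊗[T] ρ.V,
        (ρ.ρ σ).baseChange (ResidueField T) v - v ∈ Lb := by
  obtain ⟨Lb, ⟨bb, hbb⟩, -, hLb⟩ := hres A hA
  exact ⟨Lb, bb 0, hbb, hLb⟩

/-- **Flat and residually ordinary implies ordinary.** -/
theorem isOrdinaryAt_of_flat [IsNoetherianRing T] (hp : p.Prime) (hp2 : p ≠ 2)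
    (hflat : ρ.IsFlatAt p) (hdet : ρ.DetIsCyclotomic p)
    (hres : (GaloisRepAdic.ofResidualGaloisRep ρ.residual).IsOrdinaryAt p) :
    ρ.IsOrdinaryAt p := by
  intro A hA
  obtain ⟨Lb, bb, hbb, hLb⟩ := exists_residual_line ρ hA hres
  have hpm : (p : T) ∈ maximalIdeal T := hdet.1
  -- an element of inertia acting non trivially
  have hex : ∃ σ ∈ A.inertiaSubgroupIn ℚ, ∃ v : ρ.V,
      (1 : ResidueField T) ⊗ₜ[T] (ρ.ρ σ v - v) ≠ 0 := by
    by_contra hcon
    push Not at hcon
    obtain ⟨σ, hσ, a, ha, hna⟩ := exists_cyc_exponent hp hp2 hA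
    have h1 : (ρ.ρ σ).baseChange (ResidueField T) = LinearMap.id := by
      refine LinearMap.ext fun w => ?_
      induction w using TensorProduct.induction_on with
      | zero => rw [map_zero, map_zero]
      | tmul c v =>
        rw [LinearMap.baseChange_tmul, LinearMap.id_apply, ← sub_eq_zero, ← TensorProduct.tmul_sub]
        have h2 : c ⊗ₜ[T] (ρ.ρ σ v - v) = c • ((1 : ResidueField T) ⊗ₜ[T] (ρ.ρ σ v - v)) := by
          rw [TensorProduct.smul_tmul', smul_eq_mul, mul_one]
        rw [h2, hcon σ hσ v, smul_zero]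
      | add x y hx hy => rw [map_add, hx, hy, map_add]
    have h2 := LinearMap.det_baseChange (A := ResidueField T) (ρ.ρ σ)
    rw [h1, LinearMap.det_id] at h2
    have h3 := hdet.2 1 σ a ha
    have h4 : LinearMap.det (ρ.ρ σ) - (a : T) ∈ maximalIdeal T := by
      refine (Ideal.span_singleton_le_iff_mem _).mpr ?_ h3
      rw [pow_one]
      exact hpm
    have h5 : LinearMap.det (ρ.ρ σ) - 1 ∈ maximalIdeal T := by
      rw [← residue_eq_zero_iff, map_sub, map_one, sub_eq_zero]
      exact h2.symm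
    have h6 : ((a : ℤ) - 1 : T) ∈ maximalIdeal T := by
      have := Ideal.sub_mem _ h5 h4
      rw [sub_sub_sub_cancel_left] at this
      simpa using this
    have h7 : IsCoprime ((a : ℤ) - 1) (p : ℤ) := by
      rw [isCoprime_comm]
      exact (Nat.prime_iff_prime_int.mp hp).coprime_iff_not_dvd.mpr hna
    obtain ⟨u, w, huw⟩ := h7
    have h8 : (1 : T) ∈ maximalIdeal T := by
      have h9 := congrArg (Int.cast : ℤ → T) huw
      push_cast at h9
      rw [← h9]
      refine Ideal.add_mem _ (Ideal.mul_mem_left _ _ ?_) (Ideal.mul_mem_left _ _ hpm)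
      simpa using h6
    exact (Ideal.ne_top_iff_one _).mp (maximalIdeal.isMaximal T).ne_top h8
  obtain ⟨σ₀, hσ₀, v₀, hv₀⟩ := hex
  -- the basis
  have : Module.finrank T ρ.V = 2 := ρ.finrank_eq
  let e : Basis (Fin 2) T ρ.V := Module.finBasisOfFinrankEq T ρ.V ρ.finrank_eq
  have hcoord : ∃ i, e.repr (ρ.ρ σ₀ v₀ - v₀) i ∉ maximalIdeal T := by
    by_contra hcon
    push Not at hcon
    apply hv₀
    have h1 := mem_smul_top_of_repr e hcon
    refine Submodule.smul_induction_on (p := fun x => (1 : ResidueField T) ⊗ₜ[T] x = 0) h1 ?_ ?_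
    · intro r hr n _
      rw [TensorProduct.tmul_smul, TensorProduct.smul_tmul', Algebra.smul_def,
        IsLocalRing.ResidueField.algebraMap_eq, (IsLocalRing.residue_eq_zero_iff r).mpr hr,
        zero_mul, TensorProduct.zero_tmul]
    · intro x y hx hy
      rw [TensorProduct.tmul_add, hx, hy, add_zero]
  obtain ⟨i, hi⟩ := hcoord
  obtain ⟨b, hb⟩ := exists_basis_of_ne e hi
  have hb0 : b 0 ∈ augM ρ A := by
    rw [hb]
    exact Submodule.subset_span ⟨σ₀, hσ₀, v₀, rfl⟩
  -- the first step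
  have hline : ∀ x ∈ augM ρ A, (1 : ResidueField T) ⊗ₜ[T] x ∈ Lb := by
    intro x hx
    have hx' : x ∈ Submodule.span T {x | ∃ σ ∈ A.inertiaSubgroupIn ℚ, ∃ v, x = ρ.ρ σ v - v} := hx
    clear hx
    induction hx' using Submodule.span_induction with
    | mem x hx =>
      obtain ⟨σ, hσ, v, rfl⟩ := hx
      have h1 := hLb σ hσ ((1 : ResidueField T) ⊗ₜ[T] v)
      rw [TensorProduct.tmul_sub]
      exact h1
    | zero => rw [TensorProduct.tmul_zero]; exact zero_mem _
    | add x y _ _ hx hy => rw [TensorProduct.tmul_add]; exact add_mem hx hy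
    | smul t x _ hx =>
      have h1 : (1 : ResidueField T) ⊗ₜ[T] (t • x) = (residue T t) •
          ((1 : ResidueField T) ⊗ₜ[T] x) := by
        rw [TensorProduct.tmul_smul, TensorProduct.smul_tmul', TensorProduct.smul_tmul',
          Algebra.smul_def, smul_eq_mul]
        rfl
      rw [h1]
      exact Lb.smul_mem _ hx
  let bk : Basis (Fin 2) (ResidueField T) (ResidueField T ⊗[T] ρ.V) := b.baseChange (ResidueField T)
  have hbk : ∀ i, bk i = 1 ⊗ₜ b i := fun i => b.baseChange_apply (ResidueField T) i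
  have hrepr : ∀ (x : ρ.V) i, bk.repr (1 ⊗ₜ[T] x) i = residue T (b.repr x i) := by
    intro x i
    rw [Basis.baseChange_repr_tmul, Algebra.smul_def, mul_one]
    rfl
  have h1 : ∀ x ∈ augM ρ A, b.repr x 1 ∈ maximalIdeal T ^ 1 := by
    intro x hx
    rw [pow_one, ← residue_eq_zero_iff, ← hrepr]
    have h2 := hline x hx
    have h3 := hline _ hb0
    rw [hbb] at h2 h3
    obtain ⟨r, hr⟩ := Submodule.mem_span_singleton.mp h2
    obtain ⟨s, hs⟩ := Submodule.mem_span_singleton.mp h3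
    have hs0 : s ≠ 0 := by
      rintro rfl
      rw [zero_smul] at hs
      rw [← hbk 0] at hs
      exact bk.ne_zero 0 hs.symm
    have h4 : (1 : ResidueField T) ⊗ₜ[T] x = (r * s⁻¹) • bk 0 := by
      rw [hbk, ← hs, smul_smul, mul_assoc, inv_mul_cancel₀ hs0, mul_one]
      exact hr.symm
    rw [h4, map_smul, Finsupp.smul_apply, Basis.repr_self, Finsupp.single_apply]
    simp
  have h2 : ∀ k : ℕ, ∀ x ∈ augM ρ A, b.repr x 1 ∈ maximalIdeal T ^ (k + 1) := by
    intro k
    induction k with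
    | zero => exact h1
    | succ k ih =>
      intro x hx
      exact coord_step ρ hp hp2 hA hflat hpm b hb0 (by omega) ih hx
  have h3 : ∀ x ∈ augM ρ A, b.repr x 1 = 0 := by
    intro x hx
    have h4 : b.repr x 1 ∈ (⨅ i : ℕ, maximalIdeal T ^ i : Ideal T) := by
      rw [Ideal.mem_iInf]
      intro i
      exact Ideal.pow_le_pow_right (Nat.le_succ i) (h2 i x hx)
    rw [Ideal.iInf_pow_eq_bot_of_isLocalRing _ (maximalIdeal.isMaximal T).ne_top] at h4
    exact h4
  have hL : augM ρ A = T ∙ b 0 := by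
    apply le_antisymm
    · intro x hx
      rw [Submodule.mem_span_singleton]
      refine ⟨b.repr x 0, ?_⟩
      conv_rhs => rw [← b.sum_repr x]
      rw [Fin.sum_univ_two, h3 x hx, zero_smul, add_zero]
    · rw [Submodule.span_singleton_le_iff_mem]
      exact hb0
  exact ⟨augM ρ A, ⟨b, hL⟩, fun σ hσ v hv => augM_stable ρ hσ hv, fun σ hσ v =>
    Submodule.subset_span ⟨σ, hσ, v, rfl⟩⟩

end Fermat.Agent.Conn
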