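import Mathlib
import Fermat.Agent.Conn.Char
import Fermat.Agent.Conn.Main

/-!
# Flat with a line stable under the decomposition group implies ordinary
-/

set_option autoImplicit false
set_option linter.unusedSectionVars false
set_option linter.style.haveILetI false

noncomputable section

open scoped TensorProduct

namespace Fermat.Agent.Conn

open Module Fermat.Agent.Flat Fermat.Agent.LG Fermat.Agent.GaloisBasics Fermat.Agent.Inertia
  Fermat.Agent.EC IsLocalRing

/-- The field of algebraic numbers. -/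
local notation "Qb" => AlgebraicClosure ℚ
/-- The absolute Galois group. -/
local notation "GQ" => (AlgebraicClosure ℚ ≃ₐ[ℚ] AlgebraicClosure ℚ)

section Abs

variable {A : ValuationSubring Qb} {p : ℕ} {k : Type*} [Field k] [Finite k] [CharP k p]
  {W : Type*} [AddCommGroup W] [Module k W] [DistribMulAction GQ W] [Finite W]

variable (A) in
/-- The trivial extension of a character of the decomposition group. -/
def extC (χ : A.decompositionSubgroup ℚ →* kˣ) (σ : GQ) : kˣ :=
  open Classical in if h : σ ∈ A.decompositionSubgroup ℚ then χ ⟨σ, h⟩ else 1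

theorem extC_mem (χ : A.decompositionSubgroup ℚ →* kˣ) {σ : GQ}
    (h : σ ∈ A.decompositionSubgroup ℚ) : extC A χ σ = χ ⟨σ, h⟩ := dif_pos h

theorem extC_conj (χ : A.decompositionSubgroup ℚ →* kˣ) {φ σ : GQ}
    (hφ : φ ∈ A.decompositionSubgroup ℚ) (hσ : σ ∈ A.inertiaSubgroupIn ℚ) :
    extC A χ (φ * σ * φ⁻¹) = extC A χ σ := by
  have hσ' := inertia_le_decomp hσ
  have h1 : φ * σ * φ⁻¹ ∈ A.decompositionSubgroup ℚ := mul_mem (mul_mem hφ hσ') (inv_mem hφ)
  rw [extC_mem χ h1, extC_mem χ hσ']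
  have h2 : (⟨φ * σ * φ⁻¹, h1⟩ : A.decompositionSubgroup ℚ) = ⟨φ, hφ⟩ * ⟨σ, hσ'⟩ * ⟨φ, hφ⟩⁻¹ := rfl
  rw [h2, map_mul, map_mul, map_inv, mul_comm (χ ⟨φ, hφ⟩), mul_inv_cancel_right]

/-- The one-dimensional representation attached to a character. -/
def Ch (_χ : GQ → kˣ) : Type _ := k

instance (χ : GQ → kˣ) : AddCommGroup (Ch χ) := inferInstanceAs (AddCommGroup k)
instance (χ : GQ → kˣ) : Module k (Ch χ) := inferInstanceAs (Module k k)
instance (χ : GQ → kˣ) : Finite (Ch χ) := inferInstanceAs (Finite k)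

/-- **K4**, abstract form -/
theorem not_connected (hp : p.Prime) (hp2 : p ≠ 2) (hA : A.LiesOverPrime p)
    {H : Subalgebra (OI A) (W → Qb)}
    (hH : IsHopfOrder (OI A) (A.inertiaSubgroupIn ℚ) H) (hval : ∀ f ∈ H, ∀ w, f w ∈ A)
    (hlin : ∀ (σ : GQ) (a : k) (w : W), σ • (a • w) = a • (σ • w)) (b : Basis (Fin 2) k W)
    (hline : ∀ σ ∈ A.decompositionSubgroup ℚ, σ • b 0 ∈ k ∙ b 0)
    (hdet : ∀ σ ∈ A.inertiaSubgroupIn ℚ, ∀ n : ℕ, (∀ μ : Qb, μ ^ p = 1 → σ μ = μ ^ n) →
      b.repr (σ • b 0) 0 * b.repr (σ • b 1) 1 = n) : ¬ ∀ w : W, w ∈ red A H := by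
  intro hred
  have hdvr := isDVR_OI hp hA
  have hrs : ∀ (c : k) (v : W) (i : Fin 2), b.repr (c • v) i = c * b.repr v i := by
    intro c v i
    rw [LinearEquiv.map_smul, Finsupp.smul_apply, smul_eq_mul]
  have hcoord : ∀ σ ∈ A.decompositionSubgroup ℚ, σ • b 0 = b.repr (σ • b 0) 0 • b 0 := by
    intro σ hσ
    obtain ⟨c, hc⟩ := Submodule.mem_span_singleton.mp (hline σ hσ)
    rw [← hc, hrs, Basis.repr_self, Finsupp.single_eq_same, mul_one]
  have hcoord1 : ∀ σ ∈ A.decompositionSubgroup ℚ, b.repr (σ • b 0) 1 = 0 := by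
    intro σ hσ
    rw [hcoord σ hσ, hrs, Basis.repr_self, Finsupp.single_apply, if_neg (by decide), mul_zero]
  have hact : ∀ σ ∈ A.decompositionSubgroup ℚ, ∀ w : W,
      b.repr (σ • w) 1 = b.repr (σ • b 1) 1 * b.repr w 1 := by
    intro σ hσ w
    conv_lhs => rw [← b.sum_repr w]
    rw [Fin.sum_univ_two, smul_add, hlin, hlin, map_add, Finsupp.add_apply, hrs, hrs,
      hcoord1 σ hσ, mul_zero, zero_add, mul_comm]
  -- the characters
  let e1 : A.decompositionSubgroup ℚ →* k :=
    { toFun := fun σ => b.repr ((σ : GQ) • b 0) 0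
      map_one' := by
        rw [Subgroup.coe_one, one_smul, Basis.repr_self, Finsupp.single_eq_same]
      map_mul' := fun σ τ => by
        rw [Subgroup.coe_mul, mul_smul, hcoord τ τ.2, hlin, hrs, hrs, Basis.repr_self,
          Finsupp.single_eq_same, mul_one, mul_comm] }
  let e2 : A.decompositionSubgroup ℚ →* k :=
    { toFun := fun σ => b.repr ((σ : GQ) • b 1) 1
      map_one' := by
        rw [Subgroup.coe_one, one_smul, Basis.repr_self, Finsupp.single_eq_same]
      map_mul' := fun σ τ => by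
        rw [Subgroup.coe_mul, mul_smul, hact σ σ.2] }
  let χ1 : A.decompositionSubgroup ℚ →* kˣ := e1.toHomUnits
  let χ2 : A.decompositionSubgroup ℚ →* kˣ := e2.toHomUnits
  have hχ1 : ∀ σ ∈ A.decompositionSubgroup ℚ, (extC A χ1 σ : k) = b.repr (σ • b 0) 0 := by
    intro σ hσ
    rw [extC_mem χ1 hσ]
    rfl
  have hχ2 : ∀ σ ∈ A.decompositionSubgroup ℚ, (extC A χ2 σ : k) = b.repr (σ • b 1) 1 := by
    intro σ hσ
    rw [extC_mem χ2 hσ]
    rfl
  have : NeZero p := ⟨hp.ne_zero⟩
  obtain ⟨ζ, hζ⟩ := HasEnoughRootsOfUnity.exists_primitiveRoot Qb p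
  obtain ⟨σ, hσ, a, ha, hna⟩ := exists_cyc_exponent hp hp2 hA
  have ha' : ∀ μ : Qb, μ ^ p = 1 → σ μ = μ ^ a := fun μ hμ => ha μ (by rwa [pow_one])
  have hb1 : b 0 ≠ 0 := b.ne_zero 0
  -- the line
  have h1 : (extC A χ1 σ : k) = a := by
    refine char_eq_cyc (W := W) hp hA hH hval hb1 (hred _) (fun τ c w => hlin τ c w)
      (χ := extC A χ1) (fun τ => ?_) (fun φ hφ τ hτ => extC_conj χ1 hφ hτ) hζ ⟨σ, hσ⟩
      (ha' ζ hζ.pow_eq_one)
    rw [hχ1 τ (inertia_le_decomp τ.2)]
    exact hcoord τ (inertia_le_decomp τ.2)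
  -- the quotient
  letI actI : DistribMulAction (A.inertiaSubgroupIn ℚ) (Ch (extC A χ2)) :=
    { smul := fun τ x => (extC A χ2 τ : k) • x
      one_smul := fun x => by
        change (extC A χ2 (1 : GQ) : k) • x = x
        rw [hχ2 1 (one_mem _), one_smul, Basis.repr_self, Finsupp.single_eq_same, one_smul]
      mul_smul := fun τ τ' x => by
        change (extC A χ2 ((τ : GQ) * τ') : k) • x = (extC A χ2 τ : k) • ((extC A χ2 τ' : k) • x)
        have h2 := inertia_le_decomp τ.2
        have h3 := inertia_le_decomp τ'.2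
        rw [extC_mem χ2 (mul_mem h2 h3), extC_mem χ2 h2, extC_mem χ2 h3, ← mul_smul,
          ← Units.val_mul, ← map_mul]
        rfl
      smul_zero := fun τ => smul_zero (extC A χ2 τ : k)
      smul_add := fun τ x y => smul_add (extC A χ2 τ : k) x y }
  let φ : W →+ Ch (extC A χ2) :=
    { toFun := fun w => b.repr w 1
      map_zero' := by rw [map_zero, Finsupp.zero_apply]; rfl
      map_add' := fun v w => by rw [map_add, Finsupp.add_apply]; rfl }
  have hφs : Function.Surjective φ := by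
    have hφs' : ∀ c : k, ∃ w : W, b.repr w 1 = c := fun c =>
      ⟨c • b 1, by rw [hrs, Basis.repr_self, Finsupp.single_eq_same, mul_one]⟩
    exact hφs'
  have hφG : ∀ (g : A.inertiaSubgroupIn ℚ) v, φ (g • v) = g • φ v := by
    intro g v
    change b.repr ((g : GQ) • v) 1 = (extC A χ2 g : k) * b.repr v 1
    rw [hχ2 g (inertia_le_decomp g.2)]
    exact hact g (inertia_le_decomp g.2) v
  have hH2 := hopf_quo desc_fixA hH φ hφs hφG
  set H2 : Subalgebra (OI A) (Ch (extC A χ2) → Qb) := H.comap (pull (OI A) φ) with hH2def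
  have hval2 : ∀ f ∈ H2, ∀ w, f w ∈ A := by
    intro f hf w
    obtain ⟨v, rfl⟩ := hφs w
    exact hval _ hf v
  have hred2 : ∀ w, w ∈ red A H2 := by
    intro w
    obtain ⟨v, rfl⟩ := hφs w
    exact mem_red_quo φ hφs (hred v)
  have h2 : (extC A χ2 σ : k) = a := by
    refine char_eq_cyc (W := Ch (extC A χ2)) (x := (1 : k)) hp hA hH2 hval2
      (one_ne_zero : (1 : k) ≠ 0)
      (hred2 _) (fun τ c w => smul_comm (extC A χ2 τ : k) c w)
      (χ := extC A χ2) (fun τ => rfl) (fun φ hφ τ hτ => extC_conj χ2 hφ hτ) hζ ⟨σ, hσ⟩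
      (ha' ζ hζ.pow_eq_one)
  have hσD := inertia_le_decomp hσ
  have h3 := hdet σ hσ a ha'
  rw [← hχ1 σ hσD, ← hχ2 σ hσD, h1, h2] at h3
  have h4 : (a : k) ≠ 0 := by
    rw [← h1]
    exact (extC A χ1 σ).ne_zero
  have h5 : (a : k) = 1 := mul_right_cancel₀ h4 (by rw [h3, one_mul])
  apply hna
  have h6 : (((a : ℤ) - 1 : ℤ) : k) = 0 := by push_cast; rw [h5, sub_self]
  exact (CharP.intCast_eq_zero_iff k p _).mp h6

/-- **K4**, abstract form: there is an ordinary line. -/
theorem exists_ord_basis (hp : p.Prime) (hp2 : p ≠ 2) (hA : A.LiesOverPrime p)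
    (hflat : IsFlat (OI A) (A.inertiaSubgroupIn ℚ) W Qb)
    (hlin : ∀ (σ : GQ) (a : k) (w : W), σ • (a • w) = a • (σ • w)) (b : Basis (Fin 2) k W)
    (hline : ∀ σ ∈ A.decompositionSubgroup ℚ, σ • b 0 ∈ k ∙ b 0)
    (hdet : ∀ σ ∈ A.inertiaSubgroupIn ℚ, ∀ n : ℕ, (∀ μ : Qb, μ ^ p = 1 → σ μ = μ ^ n) →
      b.repr (σ • b 0) 0 * b.repr (σ • b 1) 1 = n) :
    ∃ b' : Basis (Fin 2) k W, (∀ σ ∈ A.decompositionSubgroup ℚ, ∀ v ∈ k ∙ b' 0, σ • v ∈ k ∙ b' 0) ∧
      ∀ σ ∈ A.inertiaSubgroupIn ℚ, ∀ w : W, σ • w - w ∈ k ∙ b' 0 := by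
  obtain ⟨H, hH⟩ := hflat
  have hval : ∀ f ∈ H, ∀ w, f w ∈ A := fun f hf w => hH.value_mem hf w
  have hU := unr_inertia hp hA
  set U : Submodule k W := Submodule.span k {x | ∃ σ ∈ A.inertiaSubgroupIn ℚ, ∃ v, x = σ • v - v}
    with hUdef
  have hUD : ∀ σ ∈ A.decompositionSubgroup ℚ, ∀ v ∈ U, σ • v ∈ U := by
    intro σ hσ v hv
    induction hv using Submodule.span_induction with
    | mem x hx =>
      obtain ⟨τ, hτ, v, rfl⟩ := hx
      have h2 : σ • (τ • v - v) = (σ * τ * σ⁻¹) • (σ • v) - σ • v := by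
        rw [smul_sub]
        congr 1
        rw [← mul_smul, ← mul_smul]
        congr 1
        group
      rw [h2]
      refine Submodule.subset_span ⟨_, ?_, _, rfl⟩
      have h3 := Fermat.Agent.Flat.inertia_conj (inv_mem hσ) hτ
      rwa [inv_inv] at h3
    | zero => rw [smul_zero]; exact zero_mem _
    | add x y _ _ hx hy => rw [smul_add]; exact add_mem hx hy
    | smul c x _ hx => rw [hlin]; exact U.smul_mem _ hx
  -- the augmentation is not everything
  have hntop : U ≠ ⊤ := by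
    intro htop
    refine not_connected hp hp2 hA hH hval hlin b hline hdet fun w => ?_
    have hw : w ∈ U := by rw [htop]; trivial
    have h1 : ∀ (c : k), c • w ∈ red A H := by
      induction hw using Submodule.span_induction with
      | mem x hx =>
        obtain ⟨τ, hτ, v, rfl⟩ := hx
        intro c
        rw [smul_sub, ← hlin]
        exact smul_sub_mem_red hH hval hU.res (⟨τ, hτ⟩ : A.inertiaSubgroupIn ℚ) (c • v)
      | zero => intro c; rw [smul_zero]; exact zero_mem _
      | add x y _ _ hx hy => intro c; rw [smul_add]; exact add_mem (hx c) (hy c)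
      | smul c x _ hx => intro c'; rw [← mul_smul]; exact hx _
    have := h1 1
    rwa [one_smul] at this
  -- the augmentation is not zero
  have hnbot : U ≠ ⊥ := by
    intro hbot
    obtain ⟨σ, hσ, a, ha, hna⟩ := exists_cyc_exponent hp hp2 hA
    have ha' : ∀ μ : Qb, μ ^ p = 1 → σ μ = μ ^ a := fun μ hμ => ha μ (by rwa [pow_one])
    have h1 := hdet σ hσ a ha'
    have h2 : ∀ w : W, σ • w = w := by
      intro w
      have h3 : σ • w - w ∈ U := Submodule.subset_span ⟨σ, hσ, w, rfl⟩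
      rw [hbot, Submodule.mem_bot, sub_eq_zero] at h3
      exact h3
    rw [h2, h2, Basis.repr_self, Basis.repr_self, Finsupp.single_eq_same, Finsupp.single_eq_same,
      one_mul] at h1
    apply hna
    have h6 : (((a : ℤ) - 1 : ℤ) : k) = 0 := by push_cast; rw [← h1, sub_self]
    exact (CharP.intCast_eq_zero_iff k p _).mp h6
  have hfin : FiniteDimensional k W := Module.Finite.of_basis b
  have hrank : Module.finrank k W = 2 := by
    rw [Module.finrank_eq_card_basis b, Fintype.card_fin]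
  have h1 : Module.finrank k U = 1 := by
    have h2 := Submodule.finrank_lt hntop
    have h3 : Module.finrank k U ≠ 0 := fun h => hnbot (Submodule.finrank_eq_zero.mp h)
    omega
  obtain ⟨u, hu0, hu⟩ := finrank_eq_one_iff'.mp h1
  have hu0' : (u : W) ≠ 0 := fun h => hu0 (Subtype.ext h)
  have hex : ∃ i, b.repr (u : W) i ≠ 0 := by
    by_contra hcon
    push Not at hcon
    apply hu0'
    rw [← b.sum_repr (u : W)]
    exact Finset.sum_eq_zero fun i _ => by rw [hcon i, zero_smul]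
  obtain ⟨i, hi⟩ := hex
  obtain ⟨b', hb'⟩ := exists_basis_of_ne (T := k) b (x := (u : W)) (i := i) (by
    rw [mem_maximalIdeal, mem_nonunits_iff, not_not]
    exact isUnit_iff_ne_zero.mpr hi)
  have hUeq : U = k ∙ b' 0 := by
    apply le_antisymm
    · intro x hx
      obtain ⟨c, hc⟩ := hu ⟨x, hx⟩
      rw [Submodule.mem_span_singleton]
      exact ⟨c, by rw [hb']; exact congrArg Subtype.val hc⟩
    · rw [Submodule.span_singleton_le_iff_mem, hb']
      exact u.2
  refine ⟨b', fun σ hσ v hv => ?_, fun σ hσ w => ?_⟩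
  · rw [← hUeq] at hv ⊢
    exact hUD σ hσ v hv
  · rw [← hUeq]
    exact Submodule.subset_span ⟨σ, hσ, w, rfl⟩

end Abs

section Rep

variable {T : Type} [CommRing T] [IsLocalRing T] (ρ : GaloisRepAdic T)

/-- The residual space. -/
def ResV : Type := ResidueField T ⊗[T] ρ.V

instance : AddCommGroup (ResV ρ) := inferInstanceAs (AddCommGroup (ResidueField T ⊗[T] ρ.V))
instance : Module (ResidueField T) (ResV ρ) :=
  inferInstanceAs (Module (ResidueField T) (ResidueField T ⊗[T] ρ.V))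

instance : DistribMulAction GQ (ResV ρ) where
  smul σ x := (ρ.ρ σ).baseChange (ResidueField T) x
  one_smul x := by
    change (ρ.ρ 1).baseChange (ResidueField T) x = x
    rw [map_one, LinearMap.baseChange_one]
    rfl
  mul_smul σ τ x := by
    change (ρ.ρ (σ * τ)).baseChange (ResidueField T) x = (ρ.ρ σ).baseChange (ResidueField T)
      ((ρ.ρ τ).baseChange (ResidueField T) x)
    rw [map_mul, LinearMap.baseChange_mul]
    rfl
  smul_zero σ := map_zero _
  smul_add σ x y := map_add _ x y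

theorem smul_resV (σ : GQ) (x : ResV ρ) :
    σ • x = (ρ.ρ σ).baseChange (ResidueField T) x := rfl

/-- comparison of the two residual spaces -/
def toRes : ResV ρ →+ Lev ρ (maximalIdeal T) :=
  (TensorProduct.quotTensorEquivQuotSMul ρ.V (maximalIdeal T)).toLinearMap.toAddMonoidHom

theorem toRes_tmul (t : T) (v : ρ.V) :
    toRes ρ ((residue T t) ⊗ₜ[T] v : ResidueField T ⊗[T] ρ.V) =
      toLev ρ (maximalIdeal T) (t • v) := rfl

theorem toRes_smul (σ : GQ) (x : ResV ρ) : toRes ρ (σ • x) = σ • toRes ρ x := by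
  have key : ∀ x : ResidueField T ⊗[T] ρ.V,
      toRes ρ ((ρ.ρ σ).baseChange (ResidueField T) x) = σ • toRes ρ x := by
    intro x
    induction x using TensorProduct.induction_on with
    | zero =>
      rw [map_zero]
      have h1 : toRes ρ (0 : ResidueField T ⊗[T] ρ.V) = 0 := map_zero (toRes ρ)
      rw [h1, smul_zero]
    | tmul c v =>
      obtain ⟨t, rfl⟩ := residue_surjective c
      rw [LinearMap.baseChange_tmul, toRes_tmul, toRes_tmul, smul_toLev, (ρ.ρ σ).map_smul]
    | add x y hx hy =>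
      rw [map_add]
      have h1 : ∀ a b : ResidueField T ⊗[T] ρ.V, toRes ρ (a + b) = toRes ρ a + toRes ρ b :=
        fun a b => map_add (toRes ρ) a b
      rw [h1, h1, hx, hy, smul_add]
  exact key x

theorem toRes_injective : Function.Injective (toRes ρ) :=
  (TensorProduct.quotTensorEquivQuotSMul ρ.V (maximalIdeal T)).injective

theorem finite_resV (h : Finite (T ⧸ maximalIdeal T)) : Finite (ResV ρ) := by
  have h1 : Finite (ResidueField T) := h
  have : Module.Finite (ResidueField T) (ResV ρ) :=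
    inferInstanceAs (Module.Finite (ResidueField T) (ResidueField T ⊗[T] ρ.V))
  exact Module.finite_of_finite (ResidueField T)

variable {p : ℕ} {A : ValuationSubring Qb}

/-- the determinant of the residual representation -/
theorem det_residual (hdet : ρ.DetIsCyclotomic p) {σ : GQ} {n : ℕ}
    (hn : ∀ μ : Qb, μ ^ p = 1 → σ μ = μ ^ n) :
    LinearMap.det ((ρ.ρ σ).baseChange (ResidueField T)) = n := by
  have h2 := LinearMap.det_baseChange (A := ResidueField T) (ρ.ρ σ)
  have h3 := hdet.2 1 σ n (fun μ hμ => hn μ (by rwa [pow_one] at hμ))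
  have h4 : LinearMap.det (ρ.ρ σ) - (n : T) ∈ maximalIdeal T := by
    refine (Ideal.span_singleton_le_iff_mem _).mpr ?_ h3
    rw [pow_one]
    exact hdet.1
  rw [h2]
  have h5 := (residue_eq_zero_iff _).mpr h4
  rw [map_sub, map_natCast, sub_eq_zero] at h5
  exact h5

theorem exists_ord_basis_res (hp : p.Prime) (hp2 : p ≠ 2) (hA : A.LiesOverPrime p)
    (hflat : ρ.IsFlatAt p) (hdet : ρ.DetIsCyclotomic p)
    (hline : ∃ w : ResidueField T ⊗[T] ρ.V, w ≠ 0 ∧ ∀ σ ∈ A.decompositionSubgroup ℚ,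
      (ρ.ρ σ).baseChange (ResidueField T) w ∈ ResidueField T ∙ w) :
    ∃ b' : Basis (Fin 2) (ResidueField T) (ResidueField T ⊗[T] ρ.V),
      (∀ σ ∈ A.decompositionSubgroup ℚ, ∀ v ∈ ResidueField T ∙ b' 0,
        (ρ.ρ σ).baseChange (ResidueField T) v ∈ ResidueField T ∙ b' 0) ∧
      ∀ σ ∈ A.inertiaSubgroupIn ℚ, ∀ w : ResidueField T ⊗[T] ρ.V,
        (ρ.ρ σ).baseChange (ResidueField T) w - w ∈ ResidueField T ∙ b' 0 := by
  have hres : Finite (T ⧸ maximalIdeal T) := hflat.1
  have hk : Finite (ResidueField T) := hres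
  have hW := finite_resV ρ hres
  have hchar : CharP (ResidueField T) p := by
    have h1 : ((p : ℕ) : ResidueField T) = 0 := by
      have := (residue_eq_zero_iff _).mpr hdet.1
      rwa [map_natCast] at this
    exact (CharP.charP_iff_prime_eq_zero hp).mpr h1
  have hf1 := isFlat_inertia hp hA (isFlat_lev ρ (maximalIdeal T) hflat hres)
  obtain ⟨H, hH⟩ := hf1
  have hf2 : IsFlat (OI A) (A.inertiaSubgroupIn ℚ) (ResV ρ) Qb :=
    ⟨_, hopf_res hH (toRes ρ) (toRes_injective ρ) fun g v => toRes_smul ρ g v⟩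
  -- the basis
  have hfr : Module.finrank (ResidueField T) (ResidueField T ⊗[T] ρ.V) = 2 :=
    ρ.residual.finrank_eq
  let e : Basis (Fin 2) (ResidueField T) (ResidueField T ⊗[T] ρ.V) :=
    Module.finBasisOfFinrankEq _ _ hfr
  obtain ⟨w, hw0, hw⟩ := hline
  have hex : ∃ i, e.repr w i ≠ 0 := by
    by_contra hcon
    push Not at hcon
    apply hw0
    rw [← e.sum_repr w]
    exact Finset.sum_eq_zero fun i _ => by rw [hcon i, zero_smul]
  obtain ⟨i, hi⟩ := hex
  obtain ⟨b, hb⟩ := exists_basis_of_ne (T := ResidueField T) e (x := w) (i := i) (by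
    rw [mem_maximalIdeal, mem_nonunits_iff, not_not]
    exact isUnit_iff_ne_zero.mpr hi)
  have hdet' : ∀ σ ∈ A.inertiaSubgroupIn ℚ, ∀ n : ℕ, (∀ μ : Qb, μ ^ p = 1 → σ μ = μ ^ n) →
      b.repr ((ρ.ρ σ).baseChange (ResidueField T) (b 0)) 0 *
        b.repr ((ρ.ρ σ).baseChange (ResidueField T) (b 1)) 1 = n := by
    intro σ hσ n hn
    have h1 := det_residual ρ hdet hn
    rw [← LinearMap.det_toMatrix b, Matrix.det_fin_two] at h1
    simp only [LinearMap.toMatrix_apply] at h1
    have h2 := hw σ (inertia_le_decomp hσ)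
    obtain ⟨c, hc⟩ := Submodule.mem_span_singleton.mp h2
    have h3 : b.repr ((ρ.ρ σ).baseChange (ResidueField T) (b 0)) 1 = 0 := by
      rw [hb, ← hc, map_smul, ← hb, Finsupp.smul_apply, Basis.repr_self, Finsupp.single_apply,
        if_neg (by decide), smul_zero]
    rw [h3, mul_zero, sub_zero] at h1
    exact h1
  exact exists_ord_basis (W := ResV ρ) hp hp2 hA hf2
    (fun σ a w => map_smul ((ρ.ρ σ).baseChange (ResidueField T)) a w) b
    (fun σ hσ => by
      have := hw σ hσ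
      rw [← hb] at this
      exact this) hdet'

/-- **K4**: a flat representation with cyclotomic determinant and residually reducible at `p` is
residually ordinary. -/
theorem residual_isOrdinaryAt_of_line (hp : p.Prime) (hp2 : p ≠ 2)
    (hflat : ρ.IsFlatAt p) (hdet : ρ.DetIsCyclotomic p)
    (hline : ∀ A : ValuationSubring Qb, A.LiesOverPrime p →
      ∃ w : ResidueField T ⊗[T] ρ.V, w ≠ 0 ∧ ∀ σ ∈ A.decompositionSubgroup ℚ,
        (ρ.ρ σ).baseChange (ResidueField T) w ∈ ResidueField T ∙ w) :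
    (GaloisRepAdic.ofResidualGaloisRep ρ.residual).IsOrdinaryAt p := by
  intro A hA
  obtain ⟨b', h1, h2⟩ := exists_ord_basis_res ρ hp hp2 hA hflat hdet (hline A hA)
  exact ⟨_, ⟨b', rfl⟩, h1, h2⟩

theorem isOrdinaryAt_of_flat_of_line [IsNoetherianRing T] (hp : p.Prime) (hp2 : p ≠ 2)
    (hflat : ρ.IsFlatAt p) (hdet : ρ.DetIsCyclotomic p)
    (hline : ∀ A : ValuationSubring Qb, A.LiesOverPrime p →
      ∃ w : ResidueField T ⊗[T] ρ.V, w ≠ 0 ∧ ∀ σ ∈ A.decompositionSubgroup ℚ,
        (ρ.ρ σ).baseChange (ResidueField T) w ∈ ResidueField T ∙ w) :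
    ρ.IsOrdinaryAt p :=
  isOrdinaryAt_of_flat ρ hp hp2 hflat hdet
    (residual_isOrdinaryAt_of_line ρ hp hp2 hflat hdet hline)

end Rep

end Fermat.Agent.Conn
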